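import Mathlib
import Fermat.Prelude.Thm_IsAdicComplete_of_module_finite

/-!
# S55 / G2: `n`-th roots of principal units in adically complete rings

* `si_pp_exists_root_of_isUnit` (HP1): `R` complete for `I`, `n` a unit of `R`, `u ≡ 1 mod I`
  ⟹ `u` is an `n`-th power of some `w ≡ 1 mod I` (Hensel for `X ^ n - u`).
* `si_pp_exists_pth_root` (HP2): `p` odd, `R` complete for `(p)`, `u ≡ 1 mod p ^ k`, `k ≥ 2`
  ⟹ `u = w ^ p` with `w ≡ 1 mod p ^ (k - 1)` (successive approximation; no hypothesis that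
  `p` is a non-zero-divisor).
* `si_pp_isAdicComplete` (HP3): a ring which is a finite `ℤ_[q]`-module is `(q)`-adically
  complete.
-/

set_option autoImplicit false

namespace Fermat.Agent.S55

open Polynomial

/-- (HP1) Hensel: roots of degree prime to the residue characteristics of principal units. -/
theorem si_pp_exists_root_of_isUnit {R : Type*} [CommRing R] (I : Ideal R) [IsAdicComplete I R]
    (n : ℕ) (hn : IsUnit (n : R)) (u : R) (hu : u - 1 ∈ I) :
    ∃ w, w ^ n = u ∧ w - 1 ∈ I := by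
  rcases Nat.eq_zero_or_pos n with rfl | hpos
  · -- `0` is a unit: the ring is trivial
    have : Subsingleton R := by
      have h0 : IsUnit (0 : R) := by simpa using hn
      exact subsingleton_of_zero_eq_one (isUnit_zero_iff.1 h0)
    exact ⟨1, Subsingleton.elim _ _, by simp⟩
  · have hmonic : (X ^ n - C u : R[X]).Monic := monic_X_pow_sub_C u hpos.ne'
    have h1 : (X ^ n - C u : R[X]).eval 1 ∈ I := by
      have : (X ^ n - C u : R[X]).eval 1 = -(u - 1) := by simp
      rw [this]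
      exact I.neg_mem hu
    have h2 : IsUnit (Ideal.Quotient.mk I ((X ^ n - C u : R[X]).derivative.eval 1)) := by
      have : (X ^ n - C u : R[X]).derivative.eval 1 = (n : R) := by
        simp [derivative_X_pow]
      rw [this]
      exact hn.map _
    obtain ⟨a, ha, ha'⟩ := HenselianRing.is_henselian (R := R) (I := I) _ hmonic 1 h1 h2
    refine ⟨a, ?_, ha'⟩
    have : a ^ n - u = 0 := by simpa [IsRoot] using ha
    exact sub_eq_zero.1 this



/-- Binomial expansion up to order three, in any commutative ring. -/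
theorem si_pp_one_add_pow (R : Type*) [CommRing R] (y : R) (n : ℕ) :
    ∃ s : R, (1 + y) ^ n = 1 + n * y + (n.choose 2 : ℕ) * y ^ 2 + y ^ 3 * s := by
  induction n with
  | zero => exact ⟨0, by simp⟩
  | succ n ih =>
    obtain ⟨s, hs⟩ := ih
    refine ⟨s + (n.choose 2 : ℕ) + y * s, ?_⟩
    have hc : ((n + 1).choose 2 : ℕ) = n + n.choose 2 := by
      rw [show (2 : ℕ) = 1 + 1 from rfl, Nat.choose_succ_succ, Nat.choose_one_right]
    rw [pow_succ, hs, hc]
    push_cast
    ring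

/-- The key congruence: `(1 + p^(m+1) d)^p = 1 + p^(m+2) d + p^(m+3) e` for `p` odd. -/
theorem si_pp_one_add_pow_prime (R : Type*) [CommRing R] (p : ℕ) (hp : p.Prime) (hp2 : p ≠ 2)
    (m : ℕ) (d : R) :
    ∃ e : R, (1 + (p : R) ^ (m + 1) * d) ^ p
      = 1 + (p : R) ^ (m + 2) * d + (p : R) ^ (m + 3) * e := by
  obtain ⟨s, hs⟩ := si_pp_one_add_pow R ((p : R) ^ (m + 1) * d) p
  have h2lt : 2 < p := lt_of_le_of_ne hp.two_le (Ne.symm hp2)
  obtain ⟨t, ht⟩ := hp.dvd_choose_self (by norm_num : (2 : ℕ) ≠ 0) h2lt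
  refine ⟨(t : R) * (p : R) ^ m * d ^ 2 + (p : R) ^ (2 * m) * d ^ 3 * s, ?_⟩
  rw [hs, ht]
  push_cast
  ring


/-- One step of the successive approximation. -/
theorem si_pp_step (R : Type*) [CommRing R] (p : ℕ) (hp : p.Prime) (hp2 : p ≠ 2)
    (m : ℕ) (u w : R) (hw : (p : R) ∣ w - 1) (hu : (p : R) ^ (m + 2) ∣ u - w ^ p) :
    ∃ w' : R, (p : R) ^ (m + 1) ∣ w' - w ∧ (p : R) ^ (m + 3) ∣ u - w' ^ p := by
  obtain ⟨c, hc⟩ := hu
  obtain ⟨e, he⟩ := si_pp_one_add_pow_prime R p hp hp2 m c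
  obtain ⟨f, hf⟩ : (p : R) ∣ w ^ p - 1 := by
    have := sub_dvd_pow_sub_pow w 1 p
    rw [one_pow] at this
    exact hw.trans this
  refine ⟨w * (1 + (p : R) ^ (m + 1) * c), ⟨w * c, by ring⟩, ⟨-(c * f) - w ^ p * e, ?_⟩⟩
  rw [mul_pow, he]
  have h1 : u = w ^ p + (p : R) ^ (m + 2) * c := by rw [← hc]; ring
  have h2 : w ^ p = 1 + (p : R) * f := by rw [← hf]; ring
  rw [h1]
  have : w ^ p + (p : R) ^ (m + 2) * c
      - w ^ p * (1 + (p : R) ^ (m + 2) * c + (p : R) ^ (m + 3) * e)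
      = (p : R) ^ (m + 2) * c * (1 - w ^ p) - (p : R) ^ (m + 3) * (w ^ p * e) := by ring
  rw [this]
  have h3 : (1 : R) - w ^ p = -((p : R) * f) := by rw [h2]; ring
  rw [h3]
  ring

/-- (HP2) -/
theorem si_pp_exists_pth_root {R : Type*} [CommRing R] (p : ℕ) [Fact p.Prime] (hp2 : p ≠ 2)
    [IsAdicComplete (Ideal.span {(p : R)}) R] (k : ℕ) (hk : 2 ≤ k) (u : R)
    (hu : u - 1 ∈ Ideal.span {(p : R)} ^ k) :
    ∃ w, w ^ p = u ∧ w - 1 ∈ Ideal.span {(p : R)} ^ (k - 1) := by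
  classical
  have hp : p.Prime := Fact.out
  obtain ⟨k', rfl⟩ : ∃ k', k = k' + 2 := ⟨k - 2, by omega⟩
  have hmem : ∀ (n : ℕ) (x : R), x ∈ Ideal.span {(p : R)} ^ n ↔ (p : R) ^ n ∣ x := by
    intro n x
    rw [Ideal.span_singleton_pow, Ideal.mem_span_singleton]
  rw [hmem] at hu
  -- the step function
  have hstep : ∀ (j : ℕ) (w : R), ∃ w' : R, ((p : R) ∣ w - 1 →
      (p : R) ^ (k' + j + 2) ∣ u - w ^ p →
      (p : R) ^ (k' + j + 1) ∣ w' - w ∧ (p : R) ^ (k' + j + 3) ∣ u - w' ^ p) := by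
    intro j w
    by_cases h : (p : R) ∣ w - 1 ∧ (p : R) ^ (k' + j + 2) ∣ u - w ^ p
    · obtain ⟨w', h1, h2⟩ := si_pp_step R p hp hp2 (k' + j) u w h.1 h.2
      exact ⟨w', fun _ _ => ⟨h1, h2⟩⟩
    · exact ⟨w, fun h1 h2 => absurd ⟨h1, h2⟩ h⟩
  choose step hstep using hstep
  let ws : ℕ → R := fun n => Nat.rec 1 (fun n w => step n w) n
  have hws0 : ws 0 = 1 := rfl
  have hwsS : ∀ n, ws (n + 1) = step n (ws n) := fun n => rfl
  have hP : ∀ n, (p : R) ∣ ws n - 1 ∧ (p : R) ^ (k' + n + 2) ∣ u - ws n ^ p := by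
    intro n
    induction n with
    | zero =>
      refine ⟨by simp [hws0], ?_⟩
      rw [hws0, one_pow]
      simpa using hu
    | succ n ih =>
      obtain ⟨h1, h2⟩ := hstep n (ws n) ih.1 ih.2
      rw [hwsS]
      refine ⟨?_, by simpa [add_assoc] using h2⟩
      have : step n (ws n) - 1 = (step n (ws n) - ws n) + (ws n - 1) := by ring
      rw [this]
      exact dvd_add ((dvd_pow_self (p : R) (by omega)).trans h1) ih.1
  have hD : ∀ n, (p : R) ^ (k' + n + 1) ∣ ws (n + 1) - ws n := fun n =>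
    (hstep n (ws n) (hP n).1 (hP n).2).1
  have hC : ∀ m n, m ≤ n → (p : R) ^ (k' + m + 1) ∣ ws n - ws m := by
    intro m n hmn
    induction n, hmn using Nat.le_induction with
    | base => simp
    | succ n hmn ih =>
      have : ws (n + 1) - ws m = (ws (n + 1) - ws n) + (ws n - ws m) := by ring
      rw [this]
      exact dvd_add ((pow_dvd_pow _ (by omega)).trans (hD n)) ih
  -- the limit
  have hsm : ∀ (n : ℕ) (x y : R),
      x ≡ y [SMOD (Ideal.span {(p : R)} ^ n • ⊤ : Submodule R R)] ↔ (p : R) ^ n ∣ x - y := by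
    intro n x y
    rw [SModEq.sub_mem, smul_eq_mul, Ideal.mul_top, hmem]
  obtain ⟨L, hL⟩ := IsPrecomplete.prec (I := Ideal.span {(p : R)}) (M := R) inferInstance
    (f := ws) (by
      intro m n hmn
      rw [hsm]
      have := hC m n hmn
      have h2 : (p : R) ^ m ∣ ws n - ws m := (pow_dvd_pow _ (by omega)).trans this
      have : ws m - ws n = -(ws n - ws m) := by ring
      rw [this]
      exact (dvd_neg).2 h2)
  have hL' : ∀ n, (p : R) ^ n ∣ ws n - L := fun n => (hsm n _ _).1 (hL n)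
  refine ⟨L, ?_, ?_⟩
  · have : u - L ^ p = 0 := by
      apply IsHausdorff.haus (I := Ideal.span {(p : R)}) (M := R) inferInstance
      intro n
      rw [hsm, sub_zero]
      have : u - L ^ p = (u - ws n ^ p) + (ws n ^ p - L ^ p) := by ring
      rw [this]
      refine dvd_add ((pow_dvd_pow _ (by omega)).trans (hP n).2) ?_
      exact (hL' n).trans (sub_dvd_pow_sub_pow _ _ _)
    exact (sub_eq_zero.1 this).symm
  · rw [hmem]
    have : L - 1 = -(ws (k' + 1) - L) + (ws (k' + 1) - ws 0) := by rw [hws0]; ring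
    rw [this, show k' + 2 - 1 = k' + 1 by omega]
    refine dvd_add ((dvd_neg).2 (hL' (k' + 1))) ?_
    have := hC 0 (k' + 1) (Nat.zero_le _)
    simpa using this



/-- (HP3) -/
theorem si_pp_isAdicComplete (q : ℕ) [Fact q.Prime] (R : Type*) [CommRing R] [Algebra ℤ_[q] R]
    [Module.Finite ℤ_[q] R] : IsAdicComplete (Ideal.span {(q : R)}) R := by
  have h0 : IsAdicComplete (Ideal.span {(q : ℤ_[q])}) ℤ_[q] := by
    rw [← PadicInt.maximalIdeal_eq_span_p]
    infer_instance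
  have h1 : IsAdicComplete (Ideal.span {(q : ℤ_[q])}) R :=
    IsAdicComplete.of_module_finite _ R
  have h2 : (Ideal.span {(q : ℤ_[q])}).map (algebraMap ℤ_[q] R) = Ideal.span {(q : R)} := by
    rw [Ideal.map_span, Set.image_singleton, map_natCast]
  rw [← h2]
  exact (IsAdicComplete.map_algebraMap_iff (I := Ideal.span {(q : ℤ_[q])}) (S := R) (M := R)).2 h1

end Fermat.Agent.S55

namespace Fermat.Agent.S55

/-- `p` is a unit of every `ℤ_[q]`-algebra when `p ≠ q` are primes. -/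
theorem si_pp_isUnit_natCast (q : ℕ) [Fact q.Prime] (p : ℕ) (hp : p.Prime) (hpq : p ≠ q)
    (R : Type*) [CommRing R] [Algebra ℤ_[q] R] : IsUnit (p : R) := by
  have hq : q.Prime := Fact.out
  have h : IsUnit ((p : ℕ) : ℤ_[q]) := by
    rw [PadicInt.isUnit_iff, PadicInt.norm_natCast_eq_one_iff]
    exact (Nat.coprime_primes hq hp).2 (Ne.symm hpq)
  have := h.map (algebraMap ℤ_[q] R)
  simpa using this

/-- (HP1) + (HP3): `p`-th roots of principal units of a finite `ℤ_[q]`-algebra, `q ≠ p`. -/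
theorem si_pp_exists_pth_root_of_ne (q : ℕ) [Fact q.Prime] (p : ℕ) (hp : p.Prime) (hpq : p ≠ q)
    (R : Type*) [CommRing R] [Algebra ℤ_[q] R] [Module.Finite ℤ_[q] R] (u : R)
    (hu : u - 1 ∈ Ideal.span {(q : R)}) :
    ∃ w, w ^ p = u ∧ w - 1 ∈ Ideal.span {(q : R)} := by
  have := si_pp_isAdicComplete q R
  exact si_pp_exists_root_of_isUnit _ p (si_pp_isUnit_natCast q p hp hpq R) u hu

/-- (HP2) + (HP3): `p`-th roots of units `≡ 1 mod p ^ k`, `k ≥ 2`, of a finite `ℤ_[p]`-algebra,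
`p` odd. -/
theorem si_pp_exists_pth_root_padic (p : ℕ) [Fact p.Prime] (hp2 : p ≠ 2)
    (R : Type*) [CommRing R] [Algebra ℤ_[p] R] [Module.Finite ℤ_[p] R] (k : ℕ) (hk : 2 ≤ k)
    (u : R) (hu : u - 1 ∈ Ideal.span {(p : R)} ^ k) :
    ∃ w, w ^ p = u ∧ w - 1 ∈ Ideal.span {(p : R)} ^ (k - 1) := by
  have := si_pp_isAdicComplete p R
  exact si_pp_exists_pth_root p hp2 k hk u hu

end Fermat.Agent.S55
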