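import Mathlib

/-!
# S55 / G2: weak approximation for `ℚ` at finitely many primes, tensor model

For pairwise distinct primes `q j` (`j : κ`, `κ` finite):

* `si_wa_exists_int`: simultaneous approximation of `y j : ℤ_[q j]` by one integer;
* `si_wa_exists_rat`: simultaneous approximation of `a j : ℚ_[q j]` by one rational;
* `si_wa_weakApprox`: for a finite-dimensional `ℚ`-vector space `V` with basis `b`, simultaneous
  approximation of `x j : V ⊗[ℚ] ℚ_[q j]` by one vector `v : V`, the error being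
  `q ^ k`-divisible in the `ℤ_[q j]`-span of the basis (no topology on the tensor product).
-/

set_option autoImplicit false

namespace Fermat.Agent.S55

open scoped TensorProduct

/-- Simultaneous approximation of `q j`-adic integers by a rational integer. -/
theorem si_wa_exists_int {κ : Type*} [Finite κ] (q : κ → ℕ) [∀ j, Fact (q j).Prime]
    (hq : Function.Injective q) (K : ℕ) (y : ∀ j, ℤ_[q j]) :
    ∃ n : ℤ, ∀ j, ‖(n : ℤ_[q j]) - y j‖ ≤ (q j : ℝ) ^ (-(K : ℤ)) := by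
  classical
  have hcop : Pairwise (Function.onFun IsCoprime fun j => Ideal.span {((q j : ℕ) : ℤ) ^ K}) := by
    intro i j hij
    change IsCoprime (Ideal.span {((q i : ℕ) : ℤ) ^ K}) (Ideal.span {((q j : ℕ) : ℤ) ^ K})
    rw [Ideal.isCoprime_span_singleton_iff]
    apply IsCoprime.pow
    rw [Nat.isCoprime_iff_coprime]
    exact (Nat.coprime_primes (Fact.out) (Fact.out)).2 fun h => hij (hq h)
  obtain ⟨n, hn⟩ := Ideal.exists_forall_sub_mem_ideal hcop fun j => (((y j).appr K : ℕ) : ℤ)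
  refine ⟨n, fun j => ?_⟩
  rw [PadicInt.norm_le_pow_iff_mem_span_pow]
  have h1 : ((n - (((y j).appr K : ℕ) : ℤ) : ℤ) : ℤ_[q j]) ∈
      Ideal.span {((q j : ℕ) : ℤ_[q j]) ^ K} := by
    obtain ⟨c, hc⟩ := Ideal.mem_span_singleton.1 (hn j)
    rw [Ideal.mem_span_singleton, hc]
    exact ⟨(c : ℤ_[q j]), by push_cast; ring⟩
  have h2 := PadicInt.appr_spec K (y j)
  have : (n : ℤ_[q j]) - y j
      = ((n - (((y j).appr K : ℕ) : ℤ) : ℤ) : ℤ_[q j]) - (y j - ((y j).appr K : ℕ)) := by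
    push_cast; ring
  rw [this]
  exact Ideal.sub_mem _ h1 h2

/-- The `q j`-adic norm of `∏ i, q i ^ e` for pairwise distinct primes. -/
theorem si_wa_norm_prod {κ : Type*} [Fintype κ] (q : κ → ℕ) [∀ j, Fact (q j).Prime]
    (hq : Function.Injective q) (e : ℕ) (j : κ) :
    ‖((∏ i, q i ^ e : ℕ) : ℚ_[q j])‖ = (q j : ℝ) ^ (-(e : ℤ)) := by
  classical
  push_cast
  rw [norm_prod, Finset.prod_eq_single j]
  · rw [norm_pow, Padic.norm_p, zpow_neg, zpow_natCast, inv_pow]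
  · intro i _ hij
    rw [norm_pow]
    have : ‖((q i : ℕ) : ℚ_[q j])‖ = 1 := by
      rw [Padic.norm_natCast_eq_one_iff]
      exact (Nat.coprime_primes (Fact.out) (Fact.out)).2 fun h => hij (hq h).symm
    rw [this, one_pow]
  · intro h
    exact absurd (Finset.mem_univ j) h

/-- **Weak approximation for `ℚ`** at finitely many primes. -/
theorem si_wa_exists_rat {κ : Type*} [Finite κ] (q : κ → ℕ) [∀ j, Fact (q j).Prime]
    (hq : Function.Injective q) (k : ℕ) (a : ∀ j, ℚ_[q j]) :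
    ∃ r : ℚ, ∀ j, ‖(r : ℚ_[q j]) - a j‖ ≤ (q j : ℝ) ^ (-(k : ℤ)) := by
  classical
  cases nonempty_fintype κ
  have hq1 : ∀ j, (1 : ℝ) < q j := fun j => by exact_mod_cast (Fact.out : (q j).Prime).one_lt
  -- a common exponent bounding all the norms
  have hej : ∀ j, ∃ e : ℕ, ‖a j‖ ≤ (q j : ℝ) ^ e := fun j =>
    (pow_unbounded_of_one_lt ‖a j‖ (hq1 j)).imp fun e he => he.le
  choose ej hej using hej
  set e : ℕ := ∑ j, ej j with he
  have hae : ∀ j, ‖a j‖ ≤ (q j : ℝ) ^ e := fun j =>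
    (hej j).trans (pow_le_pow_right₀ (hq1 j).le
      (Finset.single_le_sum (fun _ _ => Nat.zero_le _) (Finset.mem_univ j)))
  set M : ℕ := ∏ i, q i ^ e with hM
  have hMnorm : ∀ j, ‖(M : ℚ_[q j])‖ = (q j : ℝ) ^ (-(e : ℤ)) := fun j =>
    si_wa_norm_prod q hq e j
  have hqpos : ∀ j, (0 : ℝ) < q j := fun j => lt_trans zero_lt_one (hq1 j)
  have hint : ∀ j, ‖(M : ℚ_[q j]) * a j‖ ≤ 1 := by
    intro j
    rw [norm_mul, hMnorm, zpow_neg, zpow_natCast]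
    calc ((q j : ℝ) ^ e)⁻¹ * ‖a j‖ ≤ ((q j : ℝ) ^ e)⁻¹ * (q j : ℝ) ^ e :=
          mul_le_mul_of_nonneg_left (hae j) (inv_nonneg.2 (pow_nonneg (hqpos j).le _))
      _ = 1 := inv_mul_cancel₀ (pow_ne_zero _ (hqpos j).ne')
  let y : ∀ j, ℤ_[q j] := fun j => (⟨(M : ℚ_[q j]) * a j, hint j⟩ : ℤ_[q j])
  have hy : ∀ j, ((y j : ℤ_[q j]) : ℚ_[q j]) = (M : ℚ_[q j]) * a j := fun j => rfl
  obtain ⟨n, hn⟩ := si_wa_exists_int q hq (k + e) y
  refine ⟨(n : ℚ) / (M : ℚ), fun j => ?_⟩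
  have hM0 : (M : ℚ_[q j]) ≠ 0 := by
    intro h
    have := hMnorm j
    rw [h, norm_zero] at this
    exact (zpow_pos (hqpos j) _).ne this
  have h1 : (((n : ℚ) / (M : ℚ) : ℚ) : ℚ_[q j]) - a j
      = ((n : ℚ_[q j]) - (M : ℚ_[q j]) * a j) / (M : ℚ_[q j]) := by
    push_cast
    field_simp
  have h2 : ‖(n : ℚ_[q j]) - (M : ℚ_[q j]) * a j‖ ≤ (q j : ℝ) ^ (-((k + e : ℕ) : ℤ)) := by
    have := hn j
    rw [PadicInt.norm_def, PadicInt.coe_sub, PadicInt.coe_intCast, hy] at this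
    exact this
  rw [h1, norm_div, hMnorm, div_le_iff₀ (zpow_pos (hqpos j) _)]
  refine h2.trans (le_of_eq ?_)
  rw [← zpow_add₀ (hqpos j).ne']
  congr 1
  push_cast
  ring

/-- Every element of `V ⊗[ℚ] N` is `∑ i, b i ⊗ₜ f i` for a basis `b` of `V`. -/
theorem si_wa_exists_coord {ι : Type*} [Fintype ι] {V : Type*} [AddCommGroup V] [Module ℚ V]
    (b : Module.Basis ι ℚ V) {N : Type*} [AddCommGroup N] [Module ℚ N] (x : V ⊗[ℚ] N) :
    ∃ f : ι → N, x = ∑ i, b i ⊗ₜ[ℚ] f i := by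
  classical
  refine ⟨fun i => TensorProduct.equivFinsuppOfBasisLeft b x i, ?_⟩
  conv_lhs => rw [← (TensorProduct.equivFinsuppOfBasisLeft b).symm_apply_apply x]
  rw [TensorProduct.equivFinsuppOfBasisLeft_symm_apply, Finsupp.sum_fintype _ _ (by simp)]

/-- **Weak approximation, tensor model** (WA): simultaneous approximation of elements of
`V ⊗[ℚ] ℚ_[q j]` at finitely many distinct primes by one vector of `V`; the error is
`q ^ k` times a `ℤ_[q j]`-combination of the basis. -/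
theorem si_wa_weakApprox {ι κ : Type*} [Fintype ι] [Finite κ] {V : Type*} [AddCommGroup V]
    [Module ℚ V] (b : Module.Basis ι ℚ V) (q : κ → ℕ) [∀ j, Fact (q j).Prime]
    (hq : Function.Injective q) (k : ℕ) (x : ∀ j, V ⊗[ℚ] ℚ_[q j]) :
    ∃ v : V, ∀ j, ∃ c : ι → ℤ_[q j],
      v ⊗ₜ[ℚ] (1 : ℚ_[q j]) - x j
        = ∑ i, b i ⊗ₜ[ℚ] (((q j : ℕ) : ℚ_[q j]) ^ k * (c i : ℚ_[q j])) := by
  classical
  have hf : ∀ j, ∃ f : ι → ℚ_[q j], x j = ∑ i, b i ⊗ₜ[ℚ] f i := fun j =>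
    si_wa_exists_coord b (x j)
  choose f hf using hf
  have hr : ∀ i, ∃ r : ℚ, ∀ j, ‖(r : ℚ_[q j]) - f j i‖ ≤ (q j : ℝ) ^ (-(k : ℤ)) := fun i =>
    si_wa_exists_rat q hq k fun j => f j i
  choose r hr using hr
  refine ⟨∑ i, r i • b i, fun j => ?_⟩
  have hqpos : (0 : ℝ) < q j := by exact_mod_cast (Fact.out : (q j).Prime).pos
  have hq0 : ((q j : ℕ) : ℚ_[q j]) ^ k ≠ 0 := by
    apply pow_ne_zero
    exact_mod_cast (Fact.out : (q j).Prime).ne_zero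
  have hnorm : ∀ i, ‖((r i : ℚ_[q j]) - f j i) / ((q j : ℕ) : ℚ_[q j]) ^ k‖ ≤ 1 := by
    intro i
    rw [norm_div, Padic.norm_p_pow, div_le_one (zpow_pos hqpos _)]
    exact hr i j
  refine ⟨fun i => (⟨((r i : ℚ_[q j]) - f j i) / ((q j : ℕ) : ℚ_[q j]) ^ k, hnorm i⟩ : ℤ_[q j]),
    ?_⟩
  have hc : ∀ i, ((q j : ℕ) : ℚ_[q j]) ^ k *
      (((⟨((r i : ℚ_[q j]) - f j i) / ((q j : ℕ) : ℚ_[q j]) ^ k, hnorm i⟩ : ℤ_[q j]) : ℤ_[q j]) :
        ℚ_[q j]) = (r i : ℚ_[q j]) - f j i := by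
    intro i
    change ((q j : ℕ) : ℚ_[q j]) ^ k * (((r i : ℚ_[q j]) - f j i) / ((q j : ℕ) : ℚ_[q j]) ^ k) = _
    field_simp
  simp only [hc]
  rw [hf j, TensorProduct.sum_tmul, ← Finset.sum_sub_distrib]
  refine Finset.sum_congr rfl fun i _ => ?_
  rw [TensorProduct.smul_tmul, TensorProduct.tmul_sub]
  congr 2
  rw [Algebra.smul_def, mul_one, eq_ratCast]

/-- (WA) for a finite set of primes `T : Finset ℕ`. -/
theorem si_wa_weakApprox_finset {ι : Type*} [Fintype ι] {V : Type*} [AddCommGroup V]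
    [Module ℚ V] (b : Module.Basis ι ℚ V) (T : Finset ℕ) [∀ q : T, Fact (q : ℕ).Prime]
    (k : ℕ) (x : ∀ q : T, V ⊗[ℚ] ℚ_[(q : ℕ)]) :
    ∃ v : V, ∀ q : T, ∃ c : ι → ℤ_[(q : ℕ)],
      v ⊗ₜ[ℚ] (1 : ℚ_[(q : ℕ)]) - x q
        = ∑ i, b i ⊗ₜ[ℚ] ((((q : ℕ) : ℕ) : ℚ_[(q : ℕ)]) ^ k * (c i : ℚ_[(q : ℕ)])) :=
  si_wa_weakApprox b (fun q : T => (q : ℕ)) Subtype.val_injective k x

end Fermat.Agent.S55
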