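/-
S55 (Poitou–Tate), block G2: `p`-th powers in the `S`-adic part of the `S`-ideles.
For a number field `K`, `S` a nonempty finite set of primes, `p` an odd prime:
* `si_diagS_eq_pow_of_ray`: a nonzero integer `γ ≡ 1 mod (∏_{q ∈ S} q)^2` is a `p`-th power in
  `∏_{q ∈ S} (ℚ_[q] ⊗ K)ˣ`;
* `si_exists_mul_eq_pow`: `∏_{q ∈ S} (ℚ_[q] ⊗ K)ˣ = Kˣ · (p-th powers)` (weak approximation).
Tools: the order `ℤ_[q] ⊗[ℤ] 𝓞 K` (a finite `ℤ_[q]`-algebra, hence complete; helper22's `si_pp_*`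
and `si_wa_*`).
Owner: helper10.  Prefix `si_`.
-/
import Mathlib
import Fermat.Agent.S55.Idele.Defs
import Fermat.Agent.S55.SecondIneq.PthPower
import Fermat.Agent.S55.SecondIneq.WeakApprox

set_option autoImplicit false

open scoped NumberField TensorProduct

noncomputable section

namespace Fermat.Agent.S55

universe u

variable (K : Type u) [Field K] [NumberField K] (q : Nat.Primes)

/-- The order `ℤ_[q] ⊗[ℤ] 𝓞 K`, a finite `ℤ_[q]`-algebra. -/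
abbrev si_R : Type u := ℤ_[(q : ℕ)] ⊗[ℤ] 𝓞 K

/-- The ring homomorphism `ℤ_[q] ⊗[ℤ] 𝓞 K → ℚ_[q] ⊗[ℚ] K`. -/
def si_phi : si_R K q →+* id_A K q :=
  (Algebra.TensorProduct.lift (R := ℤ) (S := ℤ)
    ((Algebra.TensorProduct.includeLeftRingHom.comp
      (PadicInt.Coe.ringHom (p := (q : ℕ)))).toIntAlgHom : ℤ_[(q : ℕ)] →ₐ[ℤ] id_A K q)
    (((id_incl K q).toRingHom.comp (algebraMap (𝓞 K) K)).toIntAlgHom : 𝓞 K →ₐ[ℤ] id_A K q)
    (fun _ _ => Commute.all _ _)).toRingHom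

theorem si_phi_tmul (a : ℤ_[(q : ℕ)]) (x : 𝓞 K) :
    si_phi K q (a ⊗ₜ[ℤ] x) = (a : ℚ_[(q : ℕ)]) ⊗ₜ[ℚ] (x : K) := by
  change (Algebra.TensorProduct.lift _ _ _) (a ⊗ₜ[ℤ] x) = _
  rw [Algebra.TensorProduct.lift_tmul]
  change ((a : ℚ_[(q : ℕ)]) ⊗ₜ[ℚ] (1 : K)) * ((1 : ℚ_[(q : ℕ)]) ⊗ₜ[ℚ] (x : K)) = _
  rw [Algebra.TensorProduct.tmul_mul_tmul, mul_one, one_mul]

theorem si_phi_natCast (n : ℕ) : si_phi K q (n : si_R K q) = (n : id_A K q) := map_natCast _ n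

/-- `si_phi` is semilinear with respect to `ℤ_[q] → ℚ_[q]`. -/
theorem si_phi_smul (a : ℤ_[(q : ℕ)]) (r : si_R K q) :
    si_phi K q (a • r) = (a : ℚ_[(q : ℕ)]) • si_phi K q r := by
  induction r using TensorProduct.induction_on with
  | zero => simp
  | tmul b x =>
    rw [TensorProduct.smul_tmul', si_phi_tmul, si_phi_tmul, TensorProduct.smul_tmul', smul_eq_mul,
      smul_eq_mul, PadicInt.coe_mul]
  | add r₁ r₂ h₁ h₂ => rw [smul_add, map_add, map_add, h₁, h₂, smul_add]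

/-- Every element of `K` has an integer multiple in `𝓞 K`. -/
theorem si_exists_int_smul (x : K) : ∃ (y : 𝓞 K) (d : ℤ), d ≠ 0 ∧ d • x = (y : K) := by
  have hx : IsAlgebraic ℤ x := by
    have h1 : IsAlgebraic ℚ x := Algebra.IsAlgebraic.isAlgebraic x
    exact (IsFractionRing.isAlgebraic_iff ℤ ℚ K).mpr h1
  obtain ⟨d, hd, h⟩ := IsAlgebraic.exists_integral_multiple hx
  exact ⟨⟨d • x, h⟩, d, hd, rfl⟩

/-- Every `q`-adic number has a `q`-power multiple in `ℤ_[q]`. -/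
theorem si_exists_pow_mul_padicInt (a : ℚ_[(q : ℕ)]) :
    ∃ (m : ℕ) (b : ℤ_[(q : ℕ)]), ((q : ℕ) : ℚ_[(q : ℕ)]) ^ m * a = (b : ℚ_[(q : ℕ)]) := by
  have hq1 : (1 : ℝ) < ((q : ℕ) : ℝ) := by exact_mod_cast q.2.one_lt
  obtain ⟨m, hm⟩ := pow_unbounded_of_one_lt ‖a‖ hq1
  have hq0 : (0 : ℝ) < ((q : ℕ) : ℝ) := by linarith
  have hle : ‖((q : ℕ) : ℚ_[(q : ℕ)]) ^ m * a‖ ≤ 1 := by
    rw [norm_mul, Padic.norm_p_pow, zpow_neg, zpow_natCast, inv_mul_le_iff₀ (pow_pos hq0 m),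
      mul_one]
    exact hm.le
  exact ⟨m, ⟨_, hle⟩, rfl⟩

/-- Denominators: every element of `ℚ_[q] ⊗ K` has a `q`-power multiple in the order. -/
theorem si_exists_pow_smul_mem (z : id_A K q) :
    ∃ (m : ℕ) (r : si_R K q), (((q : ℕ) : ℚ_[(q : ℕ)]) ^ m) • z = si_phi K q r := by
  induction z using TensorProduct.induction_on with
  | zero => exact ⟨0, 0, by simp⟩
  | tmul a x =>
    obtain ⟨y, d, hd, hy⟩ := si_exists_int_smul K x
    have hdq : (d : ℚ) ≠ 0 := by exact_mod_cast hd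
    have h1 : a ⊗ₜ[ℚ] x = (((d : ℚ)⁻¹) • a) ⊗ₜ[ℚ] (y : K) := by
      rw [← hy, ← Int.cast_smul_eq_zsmul ℚ d x, TensorProduct.smul_tmul, smul_smul,
        inv_mul_cancel₀ hdq, one_smul]
    obtain ⟨m, b, hb⟩ := si_exists_pow_mul_padicInt q (((d : ℚ)⁻¹) • a)
    refine ⟨m, b ⊗ₜ[ℤ] y, ?_⟩
    rw [h1, TensorProduct.smul_tmul', smul_eq_mul, hb, si_phi_tmul]
  | add z₁ z₂ h₁ h₂ =>
    obtain ⟨m₁, r₁, hr₁⟩ := h₁
    obtain ⟨m₂, r₂, hr₂⟩ := h₂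
    refine ⟨m₁ + m₂, (((q : ℕ) : ℤ_[(q : ℕ)]) ^ m₂) • r₁ + (((q : ℕ) : ℤ_[(q : ℕ)]) ^ m₁) • r₂, ?_⟩
    rw [map_add, si_phi_smul, si_phi_smul, ← hr₁, ← hr₂, smul_add, smul_smul, smul_smul]
    congr 2
    · rw [pow_add, mul_comm]; push_cast; rfl
    · rw [pow_add]; push_cast; rfl

/-- `p`-th roots of units `≡ 1 mod q²` in the order (`p` odd; `q = p` allowed). -/
theorem si_exists_pth_root (p : ℕ) [Fact p.Prime] (hp2 : p ≠ 2) (u : si_R K q)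
    (hu : u - 1 ∈ Ideal.span {((q : ℕ) : si_R K q)} ^ 2) : ∃ w, w ^ p = u := by
  by_cases hpq : p = (q : ℕ)
  · subst hpq
    obtain ⟨w, hw, -⟩ := si_pp_exists_pth_root_padic (q : ℕ) hp2 (si_R K q) 2 le_rfl u hu
    exact ⟨w, hw⟩
  · obtain ⟨w, hw, -⟩ := si_pp_exists_pth_root_of_ne (q : ℕ) p Fact.out hpq (si_R K q) u
      (Ideal.pow_le_self two_ne_zero hu)
    exact ⟨w, hw⟩

/-- Elements `≡ 1 mod q` of the order are units. -/
theorem si_isUnit_of_sub_one_mem (u : si_R K q)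
    (hu : u - 1 ∈ Ideal.span {((q : ℕ) : si_R K q)}) : IsUnit u := by
  have := si_pp_isAdicComplete (q : ℕ) (si_R K q)
  have h1 : u - 1 ∈ (⊥ : Ideal (si_R K q)).jacobson :=
    IsAdicComplete.le_jacobson_bot (Ideal.span {((q : ℕ) : si_R K q)}) hu
  have h2 := (Ideal.mem_jacobson_bot.mp h1) 1
  simpa using h2

instance si_nontrivial_A : Nontrivial (id_A K q) :=
  ⟨⟨0, 1, fun h => by
    have h1 : id_incl K q 0 = id_incl K q 1 := by rw [map_zero, map_one]; exact h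
    exact zero_ne_one (id_incl_injective K q h1)⟩⟩

omit [NumberField K] in
/-- `(q : ℤ_[q])^j • t` lies in the `j`-th power of the ideal `(q)`. -/
theorem si_pow_smul_mem (j : ℕ) (t : si_R K q) :
    (((q : ℕ) : ℤ_[(q : ℕ)]) ^ j) • t ∈ Ideal.span {((q : ℕ) : si_R K q)} ^ j := by
  have h : (((q : ℕ) : ℤ_[(q : ℕ)]) ^ j) • t =
      algebraMap ℤ_[(q : ℕ)] (si_R K q) (((q : ℕ) : ℤ_[(q : ℕ)]) ^ j) * t := Algebra.smul_def _ t
  rw [h, map_pow, map_natCast, Ideal.span_singleton_pow]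
  exact Ideal.mul_mem_right _ _ (Ideal.mem_span_singleton_self _)

/-- The algebraic core of the weak approximation step: if `v ⊗ 1` is `q^k`-close to `y⁻¹` in the
order and `q^m y` lies in the order, `m + 2 ≤ k`, then `(1 ⊗ v) y` is a `p`-th power. -/
theorem si_key (p : ℕ) [Fact p.Prime] (hp2 : p ≠ 2) (v : K) (y : (id_A K q)ˣ) (m k : ℕ)
    (hk : m + 2 ≤ k) (r ρ : si_R K q)
    (hr : (((q : ℕ) : ℚ_[(q : ℕ)]) ^ m) • (y : id_A K q) = si_phi K q r)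
    (hρ : id_incl K q v - ((y⁻¹ : (id_A K q)ˣ) : id_A K q) =
      (((q : ℕ) : ℚ_[(q : ℕ)]) ^ k) • si_phi K q ρ) :
    ∃ w : si_R K q, id_incl K q v * (y : id_A K q) = si_phi K q w ^ p ∧
      IsUnit (si_phi K q w) := by
  set u : si_R K q := 1 + (((q : ℕ) : ℤ_[(q : ℕ)]) ^ (k - m)) • (ρ * r) with hu
  have hu1 : u - 1 ∈ Ideal.span {((q : ℕ) : si_R K q)} ^ 2 := by
    have : u - 1 = (((q : ℕ) : ℤ_[(q : ℕ)]) ^ (k - m)) • (ρ * r) := by rw [hu]; ring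
    rw [this]
    exact Ideal.pow_le_pow_right (by omega) (si_pow_smul_mem K q (k - m) (ρ * r))
  have hφu : si_phi K q u = id_incl K q v * (y : id_A K q) := by
    have h1 : id_incl K q v = ((y⁻¹ : (id_A K q)ˣ) : id_A K q) +
        (((q : ℕ) : ℚ_[(q : ℕ)]) ^ k) • si_phi K q ρ := by rw [← hρ]; ring
    have h2 : ((y⁻¹ : (id_A K q)ˣ) : id_A K q) * (y : id_A K q) = 1 := by simp
    have h3 : (((q : ℕ) : ℚ_[(q : ℕ)]) ^ k) =
        (((q : ℕ) : ℚ_[(q : ℕ)]) ^ (k - m)) * (((q : ℕ) : ℚ_[(q : ℕ)]) ^ m) := by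
      rw [← pow_add]; congr 1; omega
    rw [hu, map_add, map_one, si_phi_smul, map_mul, ← hr, h1, add_mul, h2, h3]
    push_cast
    rw [mul_smul, smul_mul_assoc, smul_mul_assoc, mul_smul_comm]
  obtain ⟨w, hw⟩ := si_exists_pth_root K q p hp2 u hu1
  refine ⟨w, ?_, ?_⟩
  · rw [← hφu, ← hw, map_pow]
  · have hunit : IsUnit (si_phi K q u) :=
      (si_isUnit_of_sub_one_mem K q u (Ideal.pow_le_self two_ne_zero hu1)).map (si_phi K q)
    rw [← hw, map_pow] at hunit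
    exact (isUnit_pow_iff (Fact.out : p.Prime).ne_zero).mp hunit

/-- Weak approximation in `ℚ_[q] ⊗ K` at the primes of `S`, with error in `q^k` times the
order. -/
theorem si_weakApprox (S : Finset Nat.Primes) (k : ℕ) (z : ∀ q : S, id_A K q.1) :
    ∃ v : K, ∀ q : S, ∃ ρ : si_R K q.1,
      id_incl K q.1 v - z q = ((((q.1 : Nat.Primes) : ℕ) : ℚ_[((q.1 : Nat.Primes) : ℕ)]) ^ k) •
        si_phi K q.1 ρ := by
  classical
  have : ∀ j : S, Fact ((fun j : S => ((j : Nat.Primes) : ℕ)) j).Prime := fun j => id_factPrime j.1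
  have hinj : Function.Injective (fun j : S => ((j : Nat.Primes) : ℕ)) := by
    intro a b h
    exact Subtype.ext (Subtype.ext h)
  obtain ⟨v, hv⟩ := si_wa_weakApprox (NumberField.integralBasis K)
    (fun j : S => ((j : Nat.Primes) : ℕ)) hinj k
    (fun j => (TensorProduct.comm ℚ ℚ_[((j : Nat.Primes) : ℕ)] K) (z j))
  refine ⟨v, fun j => ?_⟩
  obtain ⟨c, hc⟩ := hv j
  refine ⟨∑ i, (c i) ⊗ₜ[ℤ] (NumberField.RingOfIntegers.basis K i), ?_⟩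
  have h1 := congrArg (TensorProduct.comm ℚ K ℚ_[((j : Nat.Primes) : ℕ)]) hc
  rw [map_sub, map_sum, TensorProduct.comm_tmul] at h1
  have h2 : (TensorProduct.comm ℚ K ℚ_[((j : Nat.Primes) : ℕ)])
      ((TensorProduct.comm ℚ ℚ_[((j : Nat.Primes) : ℕ)] K) (z j)) = z j :=
    (TensorProduct.comm ℚ ℚ_[((j : Nat.Primes) : ℕ)] K).symm_apply_apply (z j)
  rw [h2] at h1
  rw [id_incl_apply, h1, map_sum, Finset.smul_sum]
  refine Finset.sum_congr rfl (fun i _ => ?_)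
  rw [TensorProduct.comm_tmul, si_phi_tmul, TensorProduct.smul_tmul', smul_eq_mul,
    NumberField.integralBasis_apply]

/-- **`J_S = Kˣ · J_S^p`** for the `S`-adic part of the `S`-ideles (weak approximation and
openness of `p`-th powers). -/
theorem si_exists_mul_eq_pow (S : Finset Nat.Primes) (hS : S.Nonempty) (p : ℕ) [Fact p.Prime]
    (hp2 : p ≠ 2) (y : id_JS S K) :
    ∃ (α : Kˣ) (w : id_JS S K), id_diagS S K α * y = w ^ p := by
  classical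
  have hden : ∀ q : S, ∃ (m : ℕ) (r : si_R K q.1),
      ((((q.1 : Nat.Primes) : ℕ) : ℚ_[((q.1 : Nat.Primes) : ℕ)]) ^ m) •
        ((y q : (id_A K q.1)ˣ) : id_A K q.1) = si_phi K q.1 r :=
    fun q => si_exists_pow_smul_mem K q.1 _
  choose m r hr using hden
  set k := (∑ q : S, m q) + 2 with hk
  have hkm : ∀ q : S, m q + 2 ≤ k := by
    intro q
    have := Finset.single_le_sum (f := m) (fun i _ => Nat.zero_le (m i)) (Finset.mem_univ q)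
    omega
  obtain ⟨v, hv⟩ := si_weakApprox K S k
    (fun q => (((y q)⁻¹ : (id_A K q.1)ˣ) : id_A K q.1))
  choose ρ hρ using hv
  have hkey : ∀ q : S, ∃ w : si_R K q.1,
      id_incl K q.1 v * ((y q : (id_A K q.1)ˣ) : id_A K q.1) = si_phi K q.1 w ^ p ∧
        IsUnit (si_phi K q.1 w) :=
    fun q => si_key K q.1 p hp2 v (y q) (m q) k (hkm q) (r q) (ρ q) (hr q) (hρ q)
  choose w hw hwu using hkey
  have hv0 : v ≠ 0 := by
    obtain ⟨q, hq⟩ := hS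
    rintro rfl
    have h1 := hw ⟨q, hq⟩
    rw [map_zero, zero_mul] at h1
    have h2 : IsUnit (si_phi K q (w ⟨q, hq⟩) ^ p) := (hwu ⟨q, hq⟩).pow p
    rw [← h1] at h2
    exact not_isUnit_zero h2
  refine ⟨Units.mk0 v hv0, fun q => (hwu q).unit, ?_⟩
  funext q
  apply Units.ext
  rw [Pi.mul_apply, Pi.pow_apply, Units.val_mul, Units.val_pow_eq_pow_val, id_diagS_apply,
    id_inclU_coe, Units.val_mk0, IsUnit.unit_spec]
  exact hw q

/-- A nonzero integer `γ ≡ 1 mod N`, `q² ∣ N`, is a `p`-th power in `ℚ_[q] ⊗ K`. -/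
theorem si_incl_eq_pow_of_ray (p : ℕ) [Fact p.Prime] (hp2 : p ≠ 2) (N : ℕ)
    (hN : (q : ℕ) ^ 2 ∣ N) (γ : 𝓞 K) (hγ : γ - 1 ∈ Ideal.span {(N : 𝓞 K)}) :
    ∃ w : si_R K q, si_phi K q w ^ p = id_incl K q (γ : K) := by
  obtain ⟨N', rfl⟩ := hN
  obtain ⟨δ, hδ⟩ := Ideal.mem_span_singleton.mp hγ
  set u : si_R K q := (1 : ℤ_[(q : ℕ)]) ⊗ₜ[ℤ] γ with hu
  have hu1 : u - 1 ∈ Ideal.span {((q : ℕ) : si_R K q)} ^ 2 := by
    have h1 : u - 1 = (1 : ℤ_[(q : ℕ)]) ⊗ₜ[ℤ] (γ - 1) := by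
      rw [hu, TensorProduct.tmul_sub, Algebra.TensorProduct.one_def]
    have h2 : γ - 1 = (((q : ℕ) ^ 2 * N' : ℕ) : ℤ) • δ := by
      rw [hδ, zsmul_eq_mul]; push_cast; ring
    have h3 : u - 1 = ((q : ℕ) : si_R K q) ^ 2 * ((N' : si_R K q) * ((1 : ℤ_[(q : ℕ)]) ⊗ₜ[ℤ] δ)) := by
      rw [h1, h2, TensorProduct.tmul_smul, zsmul_eq_mul]
      push_cast
      ring
    rw [h3, Ideal.span_singleton_pow]
    exact Ideal.mul_mem_right _ _ (Ideal.mem_span_singleton_self _)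
  obtain ⟨w, hw⟩ := si_exists_pth_root K q p hp2 u hu1
  refine ⟨w, ?_⟩
  rw [← map_pow, hw, hu, si_phi_tmul, id_incl_apply]
  simp

/-- The modulus `(∏_{q ∈ S} q)²`. -/
def si_M (S : Finset Nat.Primes) : ℕ := (∏ q ∈ S, (q : ℕ)) ^ 2

theorem si_M_ne_zero (S : Finset Nat.Primes) : si_M S ≠ 0 := by
  unfold si_M
  exact pow_ne_zero 2 (Finset.prod_ne_zero_iff.mpr (fun q _ => q.2.ne_zero))

theorem si_sq_dvd_M (S : Finset Nat.Primes) {q : Nat.Primes} (hq : q ∈ S) :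
    (q : ℕ) ^ 2 ∣ si_M S :=
  pow_dvd_pow_of_dvd (Finset.dvd_prod_of_mem (fun q : Nat.Primes => (q : ℕ)) hq) 2

/-- **The ray is made of `p`-th powers.** A nonzero integer `γ ≡ 1 mod (∏_{q ∈ S} q)²` is a
`p`-th power in `∏_{q ∈ S} (ℚ_[q] ⊗ K)ˣ`. -/
theorem si_diagS_eq_pow_of_ray (S : Finset Nat.Primes) (p : ℕ) [Fact p.Prime] (hp2 : p ≠ 2)
    (γ : 𝓞 K) (hγ0 : (γ : K) ≠ 0) (hγ : γ - 1 ∈ Ideal.span {((si_M S : ℕ) : 𝓞 K)}) :
    ∃ w : id_JS S K, id_diagS S K (Units.mk0 (γ : K) hγ0) = w ^ p := by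
  have h : ∀ q : S, ∃ w : si_R K q.1, si_phi K q.1 w ^ p = id_incl K q.1 (γ : K) :=
    fun q => si_incl_eq_pow_of_ray K q.1 p hp2 (si_M S) (si_sq_dvd_M S q.2) γ hγ
  choose w hw using h
  have hunit : ∀ q : S, IsUnit (si_phi K q.1 (w q)) := by
    intro q
    have h1 : IsUnit (id_incl K q.1 (γ : K)) := (IsUnit.mk0 _ hγ0).map (id_incl K q.1)
    rw [← hw q] at h1
    exact (isUnit_pow_iff (Fact.out : p.Prime).ne_zero).mp h1
  refine ⟨fun q => (hunit q).unit, ?_⟩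
  funext q
  apply Units.ext
  rw [Pi.pow_apply, Units.val_pow_eq_pow_val, id_diagS_apply, id_inclU_coe, Units.val_mk0,
    IsUnit.unit_spec]
  exact (hw q).symm

end Fermat.Agent.S55
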