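/-
S55 (Poitou–Tate), block G2: the ideal part of the class map of a layer.
`E ⊆ L` number fields, `L/E` Galois with group `G`, `S` a finite set of rational primes.
* `si_res : Gal(L/E) →* (L ≃ₐ[ℚ] L)` (restriction of scalars);
* `si_ext S E L 𝔞 : id_I S L`, the divisor `w ↦ ord_{w ∩ E}(𝔞)` of an ideal `𝔞` of `𝓞 E`
  (`= 𝔞 𝓞 L` when `L/E` is unramified outside `S`), multiplicative and `G`-invariant;
* principal ideals, primes of degree one, and `G`-invariant divisors.
Owner: helper10.  Prefix `si_`.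
-/
import Mathlib
import Fermat.Agent.S55.Idele.Defs
import Fermat.Agent.S55.SecondIneq.LocalPowers

set_option autoImplicit false
set_option linter.unusedSectionVars false

open scoped NumberField Pointwise
open IsDedekindDomain

noncomputable section

namespace Fermat.Agent.S55

variable (S : Finset Nat.Primes) (E L : Type) [Field E] [NumberField E] [Field L]
  [NumberField L] [Algebra E L]

/-- Restriction of scalars `Gal(L/E) →* (L ≃ₐ[ℚ] L)`. -/
def si_res : (L ≃ₐ[E] L) →* (L ≃ₐ[ℚ] L) where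
  toFun := AlgEquiv.restrictScalars ℚ
  map_one' := rfl
  map_mul' _ _ := rfl

@[simp] theorem si_res_apply (g : L ≃ₐ[E] L) (x : L) : si_res E L g x = g x := rfl

theorem si_res_smul_int (g : L ≃ₐ[E] L) (x : 𝓞 L) : si_res E L g • x = g • x := rfl

variable {E L}

open Classical in
/-- The exponent of the prime `v` in the ideal `𝔞`. -/
def si_cnt (v : HeightOneSpectrum (𝓞 E)) (𝔞 : Ideal (𝓞 E)) : ℕ :=
  (Associates.mk v.asIdeal).count (Associates.mk 𝔞).factors

theorem si_cnt_mul (v : HeightOneSpectrum (𝓞 E)) {𝔞 𝔟 : Ideal (𝓞 E)} (ha : 𝔞 ≠ ⊥) (hb : 𝔟 ≠ ⊥) :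
    si_cnt v (𝔞 * 𝔟) = si_cnt v 𝔞 + si_cnt v 𝔟 := by
  classical
  unfold si_cnt
  rw [← Associates.mk_mul_mk]
  exact Associates.count_mul (Associates.mk_ne_zero.mpr ha) (Associates.mk_ne_zero.mpr hb)
    v.associates_irreducible

theorem si_cnt_top (v : HeightOneSpectrum (𝓞 E)) : si_cnt v ⊤ = 0 := by
  classical
  unfold si_cnt
  rw [← Ideal.one_eq_top, Associates.mk_one, Associates.factors_one]
  exact Associates.count_zero v.associates_irreducible

theorem si_cnt_self (v : HeightOneSpectrum (𝓞 E)) : si_cnt v v.asIdeal = 1 := by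
  classical
  unfold si_cnt
  exact Associates.count_self v.associates_irreducible

theorem si_cnt_of_ne {v v' : HeightOneSpectrum (𝓞 E)} (h : v ≠ v') :
    si_cnt v v'.asIdeal = 0 := by
  classical
  unfold si_cnt
  apply Associates.count_eq_zero_of_ne v.associates_irreducible v'.associates_irreducible
  intro h1
  apply h
  apply HeightOneSpectrum.ext
  exact (Associates.mk_eq_mk_iff_associated.mp h1).eq_of_normalized (by simp) (by simp) |>.symm ▸ rfl

theorem si_dvd_of_cnt_ne_zero {v : HeightOneSpectrum (𝓞 E)} {𝔞 : Ideal (𝓞 E)} (ha : 𝔞 ≠ ⊥)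
    (h : si_cnt v 𝔞 ≠ 0) : v.asIdeal ∣ 𝔞 := by
  classical
  unfold si_cnt at h
  exact (Associates.count_ne_zero_iff_dvd ha v.irreducible).mp h

variable (E L)

open Classical in
/-- The divisor function `w ↦ ord_{w ∩ E}(𝔞)` (junk value `0` for `𝔞 = ⊥`). -/
def si_extFun (𝔞 : Ideal (𝓞 E)) (w : id_P S L) : ℤ :=
  if 𝔞 = ⊥ then 0 else (si_cnt (w.1.under (𝓞 E)) 𝔞 : ℤ)

theorem si_extFun_finite (𝔞 : Ideal (𝓞 E)) : (Function.support (si_extFun S E L 𝔞)).Finite := by
  by_cases ha : 𝔞 = ⊥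
  · have : Function.support (si_extFun S E L 𝔞) = ∅ := by
      ext w
      simp [si_extFun, ha]
    rw [this]
    exact Set.finite_empty
  · have hmap : 𝔞.map (algebraMap (𝓞 E) (𝓞 L)) ≠ 0 := by
      rw [Ideal.zero_eq_bot, Ne, Ideal.map_eq_bot_iff_of_injective
        (FaithfulSMul.algebraMap_injective (𝓞 E) (𝓞 L))]
      exact ha
    have hfin := Ideal.finite_factors hmap
    apply Set.Finite.of_injOn (f := fun w : id_P S L => w.1)
      (t := {v : HeightOneSpectrum (𝓞 L) | v.asIdeal ∣ 𝔞.map (algebraMap (𝓞 E) (𝓞 L))}) _ _ hfin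
    · intro w hw
      simp only [Function.mem_support, si_extFun, if_neg ha, ne_eq, Nat.cast_eq_zero] at hw
      have h1 := si_dvd_of_cnt_ne_zero ha hw
      rw [Ideal.dvd_iff_le] at h1
      change w.1.asIdeal ∣ _
      rw [Ideal.dvd_iff_le, Ideal.map_le_iff_le_comap]
      exact h1
    · intro w _ w' _ h
      exact Subtype.ext h

/-- The divisor `w ↦ ord_{w ∩ E}(𝔞)` of an ideal of `𝓞 E`, as an element of `I^S(L)`. -/
def si_ext (𝔞 : Ideal (𝓞 E)) : id_I S L :=
  Multiplicative.ofAdd (Finsupp.ofSupportFinite (si_extFun S E L 𝔞) (si_extFun_finite S E L 𝔞))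

theorem si_ext_apply (𝔞 : Ideal (𝓞 E)) (w : id_P S L) :
    (si_ext S E L 𝔞).toAdd w = si_extFun S E L 𝔞 w := rfl

theorem si_ext_apply_of_ne {𝔞 : Ideal (𝓞 E)} (ha : 𝔞 ≠ ⊥) (w : id_P S L) :
    (si_ext S E L 𝔞).toAdd w = (si_cnt (w.1.under (𝓞 E)) 𝔞 : ℤ) := by
  rw [si_ext_apply, si_extFun, if_neg ha]

/-- Multiplicativity. -/
theorem si_ext_mul {𝔞 𝔟 : Ideal (𝓞 E)} (ha : 𝔞 ≠ ⊥) (hb : 𝔟 ≠ ⊥) :
    si_ext S E L (𝔞 * 𝔟) = si_ext S E L 𝔞 * si_ext S E L 𝔟 := by
  apply Multiplicative.toAdd.injective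
  ext w
  have hab : 𝔞 * 𝔟 ≠ ⊥ := mul_ne_zero ha hb
  change (si_ext S E L (𝔞 * 𝔟)).toAdd w = (si_ext S E L 𝔞).toAdd w + (si_ext S E L 𝔟).toAdd w
  rw [si_ext_apply_of_ne S E L hab, si_ext_apply_of_ne S E L ha, si_ext_apply_of_ne S E L hb,
    si_cnt_mul _ ha hb]
  push_cast
  rfl

theorem si_ext_top : si_ext S E L ⊤ = 1 := by
  apply Multiplicative.toAdd.injective
  ext w
  rw [si_ext_apply_of_ne S E L (by simp), si_cnt_top]
  rfl

theorem si_ext_pow {𝔞 : Ideal (𝓞 E)} (ha : 𝔞 ≠ ⊥) (n : ℕ) :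
    si_ext S E L (𝔞 ^ n) = si_ext S E L 𝔞 ^ n := by
  induction n with
  | zero => rw [pow_zero, pow_zero, Ideal.one_eq_top, si_ext_top]
  | succ n ih => rw [pow_succ, pow_succ, si_ext_mul S E L (pow_ne_zero n ha) ha, ih]

/-- Galois invariance. -/
theorem si_smul_ext (g : L ≃ₐ[E] L) (𝔞 : Ideal (𝓞 E)) :
    si_res E L g • si_ext S E L 𝔞 = si_ext S E L 𝔞 := by
  apply Multiplicative.toAdd.injective
  ext w
  change (si_ext S E L 𝔞).toAdd ((si_res E L g)⁻¹ • w) = (si_ext S E L 𝔞).toAdd w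
  rw [si_ext_apply, si_ext_apply, si_extFun, si_extFun]
  have h : ((si_res E L g)⁻¹ • w).1.under (𝓞 E) = w.1.under (𝓞 E) := by
    apply HeightOneSpectrum.ext
    rw [HeightOneSpectrum.under_asIdeal, HeightOneSpectrum.under_asIdeal, id_P_smul_val,
      id_smul_asIdeal]
    ext y
    rw [Ideal.mem_under, Ideal.mem_under, Ideal.mem_pointwise_smul_iff_inv_smul_mem, inv_inv]
    have : si_res E L g • (algebraMap (𝓞 E) (𝓞 L) y) = algebraMap (𝓞 E) (𝓞 L) y := by
      rw [si_res_smul_int]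
      apply NumberField.RingOfIntegers.ext
      change g (algebraMap E L (y : E)) = algebraMap E L (y : E)
      exact g.commutes _
    rw [this]
  rw [h]

/-! ### Unramifiedness outside `S` and principal ideals -/

variable [IsGalois E L]

/-- `L/E` is unramified outside `S`: the inertia groups at the primes of `L` not above `S` are
trivial. -/
def si_Unram : Prop :=
  ∀ w : id_P S L, ∀ g : L ≃ₐ[E] L, (∀ x : 𝓞 L, g • x - x ∈ w.1.asIdeal) → g = 1

variable {S E L}

theorem si_inertia_eq_bot (h : si_Unram S E L) (w : id_P S L) :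
    w.1.asIdeal.inertia (L ≃ₐ[E] L) = ⊥ := by
  rw [Subgroup.eq_bot_iff_forall]
  intro g hg
  exact h w g (AddSubgroup.mem_inertia.mp hg)

theorem si_ramificationIdx'_eq_one (h : si_Unram S E L) (w : id_P S L) :
    (w.1.under (𝓞 E)).asIdeal.ramificationIdx' w.1.asIdeal = 1 := by
  have : w.1.asIdeal.LiesOver (w.1.under (𝓞 E)).asIdeal := ⟨rfl⟩
  rw [Ideal.ramificationIdx'_eq_ramificationIdx _ _ (w.1.under (𝓞 E)).ne_bot,
    ← Ideal.ramificationIdxIn_eq_ramificationIdx (w.1.under (𝓞 E)).asIdeal w.1.asIdeal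
      (L ≃ₐ[E] L),
    ← Ideal.card_inertia_eq_ramificationIdxIn (G := L ≃ₐ[E] L) (w.1.under (𝓞 E)).asIdeal
      w.1.asIdeal, si_inertia_eq_bot h w]
  simp

/-- Outside `S` the valuations of `L` restrict to the valuations of `E` (no ramification). -/
theorem si_valuation_algebraMap (h : si_Unram S E L) (w : id_P S L) (x : E) :
    w.1.valuation L (algebraMap E L x) = (w.1.under (𝓞 E)).valuation E x := by
  have : w.1.asIdeal.LiesOver (w.1.under (𝓞 E)).asIdeal := ⟨rfl⟩
  rw [← HeightOneSpectrum.valuation_liesOver L (w.1.under (𝓞 E)) w.1 x,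
    si_ramificationIdx'_eq_one h w, pow_one]

/-- The divisor of a principal ideal of `𝓞 E` is the divisor of its generator in `L`. -/
theorem si_ext_span (h : si_Unram S E L) (γ : 𝓞 E) (hγ : γ ≠ 0)
    (hγ' : algebraMap E L (γ : E) ≠ 0) :
    si_ext S E L (Ideal.span {γ}) = id_div S L (Units.mk0 (algebraMap E L (γ : E)) hγ') := by
  apply Multiplicative.toAdd.injective
  ext w
  have hspan : Ideal.span {γ} ≠ ⊥ := by
    rw [Ne, Ideal.span_singleton_eq_bot]; exact hγ
  change (si_ext S E L (Ideal.span {γ})).toAdd w = (id_div S L _).toAdd w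
  rw [si_ext_apply_of_ne S E L hspan, id_div_apply, id_ordZ, Units.val_mk0,
    si_valuation_algebraMap h w, HeightOneSpectrum.valuation_of_algebraMap,
    HeightOneSpectrum.intValuation_if_neg _ hγ, WithZero.log_exp, neg_neg]
  rfl

/-! ### Primes of degree one -/

theorem si_under_smul (g : L ≃ₐ[E] L) (w : id_P S L) :
    (si_res E L g • w).1.under (𝓞 E) = w.1.under (𝓞 E) := by
  apply HeightOneSpectrum.ext
  rw [HeightOneSpectrum.under_asIdeal, HeightOneSpectrum.under_asIdeal, id_P_smul_val,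
    id_smul_asIdeal]
  exact Ideal.under_smul (𝓞 E) w.1.asIdeal g

/-- `Gal(L/E)` is transitive on the primes (outside `S`) above a prime of `E`. -/
theorem si_exists_smul_eq {w w' : id_P S L} (hw : w.1.under (𝓞 E) = w'.1.under (𝓞 E)) :
    ∃ g : L ≃ₐ[E] L, si_res E L g • w = w' := by
  have h1 : Ideal.under (𝓞 E) w.1.asIdeal = Ideal.under (𝓞 E) w'.1.asIdeal := by
    have := congrArg HeightOneSpectrum.asIdeal hw
    simpa using this
  obtain ⟨g, hg⟩ := Algebra.IsInvariant.exists_smul_of_under_eq (𝓞 E) (𝓞 L) (L ≃ₐ[E] L)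
    w.1.asIdeal w'.1.asIdeal h1
  refine ⟨g, ?_⟩
  apply Subtype.ext
  apply HeightOneSpectrum.ext
  rw [id_P_smul_val, id_smul_asIdeal, hg]
  rfl

/-- Trivial stabilizer at the primes of degree one outside `S`. -/
theorem si_stabilizer_eq_bot (h : si_Unram S E L) (w : id_P S L)
    (hf : w.1.asIdeal.inertiaDeg (𝓞 E) = 1) {g : L ≃ₐ[E] L} (hg : si_res E L g • w = w) :
    g = 1 := by
  have : w.1.asIdeal.LiesOver (w.1.under (𝓞 E)).asIdeal := ⟨rfl⟩
  have hcard := Ideal.card_stabilizer_eq_card_inertia_mul_finrank (G := L ≃ₐ[E] L)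
    (w.1.under (𝓞 E)).asIdeal w.1.asIdeal
  rw [si_inertia_eq_bot h w, hf] at hcard
  simp only [Subgroup.card_bot, mul_one] at hcard
  have hg' : g ∈ MulAction.stabilizer (L ≃ₐ[E] L) w.1.asIdeal := by
    rw [MulAction.mem_stabilizer_iff]
    have h1 : si_res E L g • w.1.asIdeal = w.1.asIdeal :=
      congrArg (fun v : id_P S L => v.1.asIdeal) hg
    exact h1
  have hbot := (Subgroup.card_eq_one (H := MulAction.stabilizer (L ≃ₐ[E] L) w.1.asIdeal)).mp hcard
  rw [hbot, Subgroup.mem_bot] at hg'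
  exact hg'

/-- The divisor of the prime of `E` below a prime `w` of degree one outside `S` is the norm of
`w`. -/
theorem si_ext_under_of_deg_one (h : si_Unram S E L) (w₀ : id_P S L)
    (hf : w₀.1.asIdeal.inertiaDeg (𝓞 E) = 1) :
    si_ext S E L (w₀.1.under (𝓞 E)).asIdeal =
      ∏ g : L ≃ₐ[E] L, si_res E L g •
        (Multiplicative.ofAdd (Finsupp.single w₀ (1 : ℤ)) : id_I S L) := by
  classical
  apply Multiplicative.toAdd.injective
  ext w
  have hne : (w₀.1.under (𝓞 E)).asIdeal ≠ ⊥ := (w₀.1.under (𝓞 E)).ne_bot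
  have hR : (∏ g : L ≃ₐ[E] L, si_res E L g •
      (Multiplicative.ofAdd (Finsupp.single w₀ (1 : ℤ)) : id_I S L)).toAdd w =
      ∑ g : L ≃ₐ[E] L, (if si_res E L g • w₀ = w then (1 : ℤ) else 0) := by
    rw [toAdd_prod, Finsupp.finsetSum_apply]
    refine Finset.sum_congr rfl (fun g _ => ?_)
    rw [id_I_smul_def, toAdd_ofAdd, toAdd_ofAdd, id_IAct_single, Finsupp.single_apply]
  change (si_ext S E L (w₀.1.under (𝓞 E)).asIdeal).toAdd w = _
  rw [hR, si_ext_apply_of_ne S E L hne]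
  by_cases hw : w.1.under (𝓞 E) = w₀.1.under (𝓞 E)
  · rw [hw, si_cnt_self]
    obtain ⟨g₀, hg₀⟩ := si_exists_smul_eq hw.symm
    rw [Finset.sum_eq_single g₀]
    · rw [if_pos hg₀]; rfl
    · intro g _ hgne
      rw [if_neg]
      intro hgw
      apply hgne
      have h1 : si_res E L (g₀⁻¹ * g) • w₀ = w₀ := by
        rw [map_mul, mul_smul, hgw, ← hg₀, map_inv, inv_smul_smul]
      have := si_stabilizer_eq_bot h w₀ hf h1
      exact (inv_mul_eq_one.mp this).symm
    · intro hg; exact absurd (Finset.mem_univ g₀) hg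
  · rw [si_cnt_of_ne hw]
    rw [Finset.sum_eq_zero]
    · rfl
    · intro g _
      rw [if_neg]
      intro hgw
      apply hw
      rw [← hgw, si_under_smul]

/-! ### Invariant divisors -/

variable (S E L) in
/-- The modulus `((∏_{q ∈ S} q)²)` of `𝓞 E`. -/
def si_modulus : Ideal (𝓞 E) := Ideal.span {((si_M S : ℕ) : 𝓞 E)}

/-- The primes of `E` below primes of `L` outside `S` are coprime to the modulus. -/
theorem si_isCoprime_under (w : id_P S L) :
    IsCoprime (w.1.under (𝓞 E)).asIdeal (si_modulus S E) := by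
  have hmax : (w.1.under (𝓞 E)).asIdeal.IsMaximal := (w.1.under (𝓞 E)).isMaximal
  rw [Ideal.isCoprime_iff_sup_eq]
  by_contra hne
  have h1 := hmax.eq_of_le hne le_sup_left
  have h2 : si_modulus S E ≤ (w.1.under (𝓞 E)).asIdeal := by
    rw [h1]; exact le_sup_right
  have h3 : ((si_M S : ℕ) : 𝓞 E) ∈ (w.1.under (𝓞 E)).asIdeal :=
    h2 (Ideal.mem_span_singleton_self _)
  have h4 : (∏ q ∈ S, (((q : Nat.Primes) : ℕ) : 𝓞 E)) ∈ (w.1.under (𝓞 E)).asIdeal := by
    apply hmax.isPrime.mem_of_pow_mem 2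
    have : ((si_M S : ℕ) : 𝓞 E) = (∏ q ∈ S, (((q : Nat.Primes) : ℕ) : 𝓞 E)) ^ 2 := by
      unfold si_M; push_cast; rfl
    rwa [this] at h3
  obtain ⟨q, hq, hqm⟩ := (hmax.isPrime.prod_mem_iff).mp h4
  apply w.2 q hq
  rw [HeightOneSpectrum.under_asIdeal, Ideal.mem_under] at hqm
  simpa using hqm

theorem si_invariant_apply {D : id_I S L} (hD : ∀ g : L ≃ₐ[E] L, si_res E L g • D = D)
    (g : L ≃ₐ[E] L) (w : id_P S L) : D.toAdd (si_res E L g • w) = D.toAdd w := by
  have h1 := congrArg (fun D' : id_I S L => D'.toAdd (si_res E L g • w)) (hD g)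
  simp only [id_I_smul_def, toAdd_ofAdd, id_IAct_apply, inv_smul_smul] at h1
  exact h1.symm

/-- Invariant divisors come from `E`, up to denominators: by induction on the support. -/
theorem si_exists_ext_of_invariant_aux : ∀ (n : ℕ) (D : id_I S L),
    D.toAdd.support.card ≤ n → (∀ g : L ≃ₐ[E] L, si_res E L g • D = D) →
    ∃ 𝔞 𝔟 : Ideal (𝓞 E), 𝔞 ≠ ⊥ ∧ 𝔟 ≠ ⊥ ∧ IsCoprime 𝔞 (si_modulus S E) ∧
      IsCoprime 𝔟 (si_modulus S E) ∧ D * si_ext S E L 𝔟 = si_ext S E L 𝔞 := by
  classical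
  intro n
  induction n with
  | zero =>
    intro D hcard _
    have hD1 : D = 1 := by
      apply Multiplicative.toAdd.injective
      rw [toAdd_one, ← Finsupp.support_eq_empty, ← Finset.card_eq_zero]
      exact Nat.le_zero.mp hcard
    have htop : IsCoprime (⊤ : Ideal (𝓞 E)) (si_modulus S E) := by
      rw [← Ideal.one_eq_top]; exact isCoprime_one_left
    exact ⟨⊤, ⊤, by simp, by simp, htop, htop, by rw [hD1, one_mul]⟩
  | succ n ih =>
    intro D hcard hD
    by_cases hemp : D.toAdd.support = ∅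
    · exact ih D (by rw [hemp]; simp) hD
    obtain ⟨w₀, hw₀⟩ := Finset.nonempty_iff_ne_empty.mpr hemp
    set v₀ := w₀.1.under (𝓞 E) with hv₀
    set c : ℤ := D.toAdd w₀ with hc
    have hc0 : c ≠ 0 := Finsupp.mem_support_iff.mp hw₀
    set F : id_I S L := si_ext S E L v₀.asIdeal with hF
    have hFapp : ∀ w : id_P S L, F.toAdd w = if w.1.under (𝓞 E) = v₀ then 1 else 0 := by
      intro w
      rw [hF, si_ext_apply_of_ne S E L v₀.ne_bot]
      split_ifs with hw
      · rw [hw, si_cnt_self]; rfl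
      · rw [si_cnt_of_ne hw]; rfl
    set D' : id_I S L := D / F ^ c with hD'
    have hD'app : ∀ w : id_P S L, D'.toAdd w = D.toAdd w - c * F.toAdd w := by
      intro w
      rw [hD', toAdd_div, toAdd_zpow, Finsupp.sub_apply, Finsupp.smul_apply, smul_eq_mul]
    have hD'inv : ∀ g : L ≃ₐ[E] L, si_res E L g • D' = D' := by
      intro g
      rw [hD', smul_div', smul_zpow', hD g, hF, si_smul_ext]
    have hsub : D'.toAdd.support ⊆ D.toAdd.support.erase w₀ := by
      intro w hw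
      rw [Finsupp.mem_support_iff, hD'app, hFapp] at hw
      rw [Finset.mem_erase, Finsupp.mem_support_iff]
      by_cases hwv : w.1.under (𝓞 E) = v₀
      · exfalso
        apply hw
        rw [if_pos hwv, mul_one]
        obtain ⟨g, hg⟩ := si_exists_smul_eq (w := w₀) (w' := w) hwv.symm
        rw [← hg, si_invariant_apply hD g w₀, hc, sub_self]
      · rw [if_neg hwv, mul_zero, sub_zero] at hw
        refine ⟨?_, hw⟩
        rintro rfl
        exact hwv rfl
    have hcard' : D'.toAdd.support.card ≤ n := by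
      have h1 := Finset.card_le_card hsub
      rw [Finset.card_erase_of_mem hw₀] at h1
      omega
    obtain ⟨𝔞', 𝔟', ha', hb', hca', hcb', heq⟩ := ih D' hcard' hD'inv
    have hv₀cop : IsCoprime v₀.asIdeal (si_modulus S E) := si_isCoprime_under w₀
    have hDF : D = D' * F ^ c := by rw [hD', div_mul_cancel]
    rcases le_or_gt 0 c with hpos | hneg
    · obtain ⟨k, hk⟩ := Int.eq_ofNat_of_zero_le hpos
      refine ⟨𝔞' * v₀.asIdeal ^ k, 𝔟', mul_ne_zero ha' (pow_ne_zero k v₀.ne_bot), hb',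
        IsCoprime.mul_left hca' (IsCoprime.pow_left hv₀cop), hcb', ?_⟩
      rw [si_ext_mul S E L ha' (pow_ne_zero k v₀.ne_bot), si_ext_pow S E L v₀.ne_bot, ← heq, hDF,
        hk, zpow_natCast, ← hF]
      rw [mul_assoc, mul_comm (F ^ k), ← mul_assoc]
    · obtain ⟨k, hk⟩ := Int.eq_ofNat_of_zero_le (Int.neg_nonneg_of_nonpos hneg.le)
      refine ⟨𝔞', 𝔟' * v₀.asIdeal ^ k, ha', mul_ne_zero hb' (pow_ne_zero k v₀.ne_bot), hca',
        IsCoprime.mul_left hcb' (IsCoprime.pow_left hv₀cop), ?_⟩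
      rw [si_ext_mul S E L hb' (pow_ne_zero k v₀.ne_bot), si_ext_pow S E L v₀.ne_bot, ← heq, hDF,
        ← hF]
      have hck : c = -(k : ℤ) := by omega
      rw [hck, zpow_neg, zpow_natCast]
      rw [mul_assoc, ← mul_assoc (F ^ k)⁻¹, mul_comm (F ^ k)⁻¹, mul_assoc _ _ (F ^ k),
        inv_mul_cancel, mul_one]

/-- **Invariant divisors come from `E`**, up to denominators. -/
theorem si_exists_ext_of_invariant (D : id_I S L)
    (hD : ∀ g : L ≃ₐ[E] L, si_res E L g • D = D) :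
    ∃ 𝔞 𝔟 : Ideal (𝓞 E), 𝔞 ≠ ⊥ ∧ 𝔟 ≠ ⊥ ∧ IsCoprime 𝔞 (si_modulus S E) ∧
      IsCoprime 𝔟 (si_modulus S E) ∧ D * si_ext S E L 𝔟 = si_ext S E L 𝔞 :=
  si_exists_ext_of_invariant_aux _ D le_rfl hD

end Fermat.Agent.S55
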