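/-
S55 (Poitou–Tate), block G2: the second inequality, ideal side.
An abstract target group `T` receiving a "class map" from the ideals of `𝓞 E` prime to a
modulus `m`, killing the ray mod `m` and the primes of degree one of a Galois extension `L/E`,
is finite of order at most `[L : E]`.  (Repackaging of S14's `ry_second_inequality_modulus`
and of the ray class package `rc_exists_quotient_numberField`.)
Owner: helper10.  Prefix `si_`.
-/
import Mathlib
import Fermat.Agent.S14.Count.RayCountDn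
import Fermat.Agent.S14.Cross.RayClass

set_option autoImplicit false

noncomputable section

namespace Fermat.Agent.S55

open NumberField Ideal Fermat.Agent.S14

universe u

variable {E : Type u} [Field E] [NumberField E]

/-- Finiteness of any group receiving a surjective multiplicative class map from the ideals
prime to `m` which kills the ray modulo `m`. -/
theorem si_finite_of_ray {T : Type*} [CommGroup T] (m : Ideal (𝓞 E)) (hm0 : m ≠ ⊥) (hm : m ≠ ⊤)
    (ψ : Ideal (𝓞 E) → T)
    (hmul : ∀ a b, IsCoprime a m → IsCoprime b m → ψ (a * b) = ψ a * ψ b)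
    (hsurj : ∀ x : T, ∃ a, IsCoprime a m ∧ ψ a = x)
    (hray : ∀ γ : 𝓞 E, γ - 1 ∈ m → γ ≠ 0 → ψ (span {γ}) = 1) : Finite T := by
  obtain ⟨Q, iG, iF, c, -, -, hcsurj, -, -, huniv⟩ :=
    rc_exists_quotient_numberField E m hm hm0 (⊥ : Submonoid (Ideal (𝓞 E)))
      (fun n hn => by
        rw [Submonoid.mem_bot] at hn
        rw [hn]
        exact isCoprime_one_left)
  choose rep hrep1 hrep2 using hcsurj
  -- every `t : T` is `ψ (rep x)` for some `x : Q`
  have key : ∀ t : T, ∃ x : Q, ψ (rep x) = t := by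
    intro t
    obtain ⟨b, hb, rfl⟩ := hsurj t
    refine ⟨c b, ?_⟩
    obtain ⟨g₁, g₂, hg₁0, hg₂0, hg₁, hg₂, n₁, hn₁, n₂, hn₂, heq⟩ :=
      huniv (rep (c b)) b (hrep1 (c b)) hb (hrep2 (c b))
    rw [Submonoid.mem_bot] at hn₁ hn₂
    rw [hn₁, hn₂, mul_one, mul_one] at heq
    have h1 := congrArg ψ heq
    rw [hmul _ _ (rc_isCoprime_span_singleton hg₁) (hrep1 (c b)),
      hmul _ _ (rc_isCoprime_span_singleton hg₂) hb, hray g₁ hg₁ hg₁0, hray g₂ hg₂ hg₂0,
      one_mul, one_mul] at h1
    exact h1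
  exact Finite.of_surjective (fun x : Q => ψ (rep x)) key

/-- **Second inequality, ideal side.** Let `L/E` be a Galois extension of number fields and
`m ≠ ⊥, ⊤` an ideal of `𝓞 E`. If `ψ` maps the ideals of `𝓞 E` to a commutative group `T`,
multiplicatively and surjectively on the ideals prime to `m`, trivially on the ray modulo `m`
and on the primes below degree-one primes of `L` prime to `m`, then `T` is finite of order
at most `[L : E]`. -/
theorem si_second_inequality (L : Type*) [Field L] [NumberField L] [Algebra E L] [IsGalois E L]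
    {T : Type*} [CommGroup T] (m : Ideal (𝓞 E)) (hm0 : m ≠ ⊥) (hm : m ≠ ⊤)
    (ψ : Ideal (𝓞 E) → T)
    (hmul : ∀ a b, IsCoprime a m → IsCoprime b m → ψ (a * b) = ψ a * ψ b)
    (hsurj : ∀ x : T, ∃ a, IsCoprime a m ∧ ψ a = x)
    (hray : ∀ γ : 𝓞 E, γ - 1 ∈ m → γ ≠ 0 → ψ (span {γ}) = 1)
    (hdeg1 : ∀ P : Ideal (𝓞 L), P.IsPrime → P ≠ ⊥ → IsCoprime (P.under (𝓞 E)) m →
      P.inertiaDeg (𝓞 E) = 1 → ψ (P.under (𝓞 E)) = 1) :
    Finite T ∧ Nat.card T ≤ Module.finrank E L := by
  have hfin : Finite T := si_finite_of_ray m hm0 hm ψ hmul hsurj hray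
  refine ⟨hfin, ?_⟩
  have htop : IsCoprime (⊤ : Ideal (𝓞 E)) m := by
    rw [← Ideal.one_eq_top]; exact isCoprime_one_left
  have hone : ψ ⊤ = 1 := by
    have h := hmul ⊤ ⊤ htop htop
    rw [Ideal.top_mul] at h
    exact (mul_eq_left.mp h.symm)
  exact ry_second_inequality_modulus L m hm0 ψ hone
    (fun a b ha hb => hmul a b (Ideal.isCoprime_iff_sup_eq.mpr ha)
      (Ideal.isCoprime_iff_sup_eq.mpr hb))
    (fun x => let ⟨a, ha, hx⟩ := hsurj x; ⟨a, Ideal.isCoprime_iff_sup_eq.mp ha, hx⟩)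
    hray
    (fun P hP hP0 hPm hPf => hdeg1 P hP hP0 (Ideal.isCoprime_iff_sup_eq.mpr hPm) hPf)

end Fermat.Agent.S55
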