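/-
S55 (Poitou–Tate), block G2: the second inequality for a cyclic layer, reduction step.
`E ⊆ L` number fields, `L/E` Galois, `G = Gal(L/E)` acting on a commutative group `U`
(in the application `U = id_C S L`).  If a "class map" from the ideals of `𝓞 E` prime to a
modulus `m` to the `σ`-invariants of `U` is multiplicative and surjective modulo norms, and kills
(modulo norms) the ray modulo `m` and the primes below degree-one primes of `L`, then
`[U^G : N_G U] ≤ [L : E]`.
Owner: helper10.  Prefix `si_`.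
-/
import Mathlib
import Fermat.Agent.S55.SecondIneq.IdealSide
import Fermat.Agent.S55.Tate.HerbrandBridge

set_option autoImplicit false

noncomputable section

namespace Fermat.Agent.S55

open NumberField Ideal

/-- **Reduction of the idelic second inequality to the ideal-theoretic one.** -/
theorem si_relIndex_le_of_classMap {E L : Type} [Field E] [NumberField E] [Field L]
    [NumberField L] [Algebra E L] [IsGalois E L]
    {G U : Type} [Group G] [Fintype G] [CommGroup U] [MulDistribMulAction G U] (σ : G)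
    (m : Ideal (𝓞 E)) (hm0 : m ≠ ⊥) (hm : m ≠ ⊤) (ψ₀ : Ideal (𝓞 E) → U)
    (hinv : ∀ a, IsCoprime a m → ψ₀ a ∈ (hb_mulD σ (U := U)).ker)
    (hmul : ∀ a b, IsCoprime a m → IsCoprime b m →
      ψ₀ (a * b) / (ψ₀ a * ψ₀ b) ∈ (hb_mulN G (U := U)).range)
    (hsurj : ∀ c ∈ (hb_mulD σ (U := U)).ker, ∃ a, IsCoprime a m ∧
      c / ψ₀ a ∈ (hb_mulN G (U := U)).range)
    (hray : ∀ γ : 𝓞 E, γ - 1 ∈ m → γ ≠ 0 → ψ₀ (span {γ}) ∈ (hb_mulN G (U := U)).range)
    (hdeg1 : ∀ P : Ideal (𝓞 L), P.IsPrime → P ≠ ⊥ → IsCoprime (P.under (𝓞 E)) m →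
      P.inertiaDeg (𝓞 E) = 1 → ψ₀ (P.under (𝓞 E)) ∈ (hb_mulN G (U := U)).range) :
    (hb_mulN G (U := U)).range.relIndex (hb_mulD σ).ker ≤ Module.finrank E L := by
  classical
  set Z : Subgroup U := (hb_mulD σ (U := U)).ker with hZ
  set B : Subgroup U := (hb_mulN G (U := U)).range with hB
  set T := ↥Z ⧸ B.subgroupOf Z with hT
  let ψ : Ideal (𝓞 E) → T := fun a =>
    if h : IsCoprime a m then (QuotientGroup.mk (⟨ψ₀ a, hinv a h⟩ : ↥Z) : T) else 1
  have hψ : ∀ a (h : IsCoprime a m), ψ a = (QuotientGroup.mk (⟨ψ₀ a, hinv a h⟩ : ↥Z) : T) :=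
    fun a h => dif_pos h
  have hone : ∀ (z : ↥Z), (z : U) ∈ B → (QuotientGroup.mk z : T) = 1 := by
    intro z hz
    rw [QuotientGroup.eq_one_iff]
    exact hz
  have key := si_second_inequality (E := E) L (T := T) m hm0 hm ψ
    (by
      intro a b ha hb
      have hab : IsCoprime (a * b) m := IsCoprime.mul_left ha hb
      rw [hψ a ha, hψ b hb, hψ _ hab, ← QuotientGroup.mk_mul, ← div_eq_one,
        ← QuotientGroup.mk_div]
      exact hone _ (hmul a b ha hb))
    (by
      intro x
      induction x using QuotientGroup.induction_on with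
      | H c =>
        obtain ⟨a, ha, hc⟩ := hsurj c c.2
        refine ⟨a, ha, ?_⟩
        rw [hψ a ha, eq_comm, ← div_eq_one, ← QuotientGroup.mk_div]
        exact hone _ hc)
    (by
      intro γ hγ hγ0
      have hcop : IsCoprime (span {γ}) m := by
        rw [Ideal.isCoprime_iff_exists]
        exact ⟨γ, Ideal.mem_span_singleton_self γ, 1 - γ, by
          have : (1 : 𝓞 E) - γ = -(γ - 1) := by ring
          rw [this]; exact neg_mem hγ, by ring⟩
      rw [hψ _ hcop]
      exact hone _ (hray γ hγ hγ0))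
    (by
      intro P hP hP0 hPm hPf
      rw [hψ _ hPm]
      exact hone _ (hdeg1 P hP hP0 hPm hPf))
  obtain ⟨hfin, hcard⟩ := key
  calc B.relIndex Z = (B.subgroupOf Z).index := rfl
    _ = Nat.card T := Subgroup.index_eq_card _
    _ ≤ Module.finrank E L := hcard

end Fermat.Agent.S55
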