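/-
S55 (Poitou–Tate), block G2: descent for a layer `L/E`.
* `si_Amap q : ℚ_[q] ⊗ E →ₐ[ℚ_[q]] ℚ_[q] ⊗ L`, injective, with image the `Gal(L/E)`-invariants
  (`si_exists_Amap_eq`); on the `S`-adic ideles `si_JSmap`;
* Hilbert 90: an invariant class of `C_S(L)` is the class of an invariant `S`-idele
  (`si_exists_invariant_lift`).
Owner: helper10.  Prefix `si_`.
-/
import Mathlib
import Fermat.Agent.S55.Idele.Defs
import Fermat.Agent.S55.SecondIneq.LayerIdeals

set_option autoImplicit false
set_option linter.unusedSectionVars false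

open scoped NumberField TensorProduct
open IsDedekindDomain

noncomputable section

namespace Fermat.Agent.S55

variable (S : Finset Nat.Primes) (E L : Type) [Field E] [NumberField E] [Field L]
  [NumberField L] [Algebra E L]

/-- The map `ℚ_[q] ⊗ E → ℚ_[q] ⊗ L` induced by `E → L`. -/
def si_Amap (q : Nat.Primes) : id_A E q →ₐ[ℚ_[(q : ℕ)]] id_A L q :=
  Algebra.TensorProduct.map (AlgHom.id ℚ_[(q : ℕ)] ℚ_[(q : ℕ)]) (IsScalarTower.toAlgHom ℚ E L)

@[simp] theorem si_Amap_tmul (q : Nat.Primes) (a : ℚ_[(q : ℕ)]) (x : E) :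
    si_Amap E L q (a ⊗ₜ[ℚ] x) = a ⊗ₜ[ℚ] algebraMap E L x := by
  simp [si_Amap]

theorem si_Amap_incl (q : Nat.Primes) (x : E) :
    si_Amap E L q (id_incl E q x) = id_incl L q (algebraMap E L x) := by
  rw [id_incl_apply, id_incl_apply, si_Amap_tmul]

theorem si_Amap_injective (q : Nat.Primes) : Function.Injective (si_Amap E L q) := by
  have h1 : Function.Injective ((IsScalarTower.toAlgHom ℚ E L).toLinearMap.lTensor ℚ_[(q : ℕ)]) :=
    Module.Flat.lTensor_preserves_injective_linearMap _ (algebraMap E L).injective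
  have h2 : ∀ z, si_Amap E L q z = (IsScalarTower.toAlgHom ℚ E L).toLinearMap.lTensor ℚ_[(q : ℕ)] z := by
    intro z
    induction z using TensorProduct.induction_on with
    | zero => simp
    | tmul a x => simp
    | add a b ha hb => rw [map_add, map_add, ha, hb]
  intro a b hab
  apply h1
  rw [← h2, ← h2, hab]

/-- The image of `si_Amap` is fixed by `Gal(L/E)`. -/
theorem si_smul_Amap (q : Nat.Primes) (g : L ≃ₐ[E] L) (z : id_A E q) :
    si_res E L g • si_Amap E L q z = si_Amap E L q z := by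
  induction z using TensorProduct.induction_on with
  | zero => simp
  | tmul a x => rw [si_Amap_tmul, ga_smul_tmul, si_res_apply, g.commutes]
  | add a b ha hb => rw [map_add, smul_add, ha, hb]

open Classical in
/-- **Galois descent for the semilocal algebras**: the `Gal(L/E)`-invariants of `ℚ_[q] ⊗ L` are
`ℚ_[q] ⊗ E`. -/
theorem si_exists_Amap_eq [IsGalois E L] (q : Nat.Primes) (z : id_A L q)
    (hz : ∀ g : L ≃ₐ[E] L, si_res E L g • z = z) : ∃ y : id_A E q, si_Amap E L q y = z := by
  set b := Module.Basis.ofVectorSpace ℚ ℚ_[(q : ℕ)] with hb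
  set e := TensorProduct.equivFinsuppOfBasisLeft (N := L) b with he
  have hc : ∀ i, ∃ c : E, algebraMap E L c = e z i := by
    intro i
    have h1 : ∀ g : L ≃ₐ[E] L, g (e z i) = e z i := by
      intro g
      have h2 := ga_coord_act ℚ_[(q : ℕ)] (si_res E L g) z i
      rw [← ga_smul_def, hz g] at h2
      exact h2.symm
    have h2 := (IsGalois.mem_bot_iff_fixed (F := E) (E := L) (e z i)).2 h1
    rw [IntermediateField.mem_bot] at h2
    exact h2
  choose c hc using hc
  refine ⟨∑ i ∈ (e z).support, b i ⊗ₜ[ℚ] c i, ?_⟩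
  rw [map_sum]
  simp only [si_Amap_tmul, hc]
  conv_rhs => rw [← e.symm_apply_apply z]
  rw [he, TensorProduct.equivFinsuppOfBasisLeft_symm_apply]
  rfl

/-! ### Units and the `S`-adic ideles -/

/-- `si_Amap` on units. -/
def si_AmapU (q : Nat.Primes) : (id_A E q)ˣ →* (id_A L q)ˣ :=
  Units.map (si_Amap E L q).toMonoidHom

@[simp] theorem si_AmapU_coe (q : Nat.Primes) (u : (id_A E q)ˣ) :
    ((si_AmapU E L q u : (id_A L q)ˣ) : id_A L q) = si_Amap E L q (u : id_A E q) := rfl

/-- The map `∏_{q ∈ S} (ℚ_[q] ⊗ E)ˣ → ∏_{q ∈ S} (ℚ_[q] ⊗ L)ˣ`. -/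
def si_JSmap : id_JS S E →* id_JS S L :=
  MonoidHom.pi fun q : S => (si_AmapU E L q.1).comp (Pi.evalMonoidHom _ q)

@[simp] theorem si_JSmap_apply (y : id_JS S E) (q : S) :
    si_JSmap S E L y q = si_AmapU E L q.1 (y q) := rfl

theorem si_JSmap_diagS (α : Eˣ) :
    si_JSmap S E L (id_diagS S E α) = id_diagS S L (Units.map (algebraMap E L).toMonoidHom α) := by
  funext q
  apply Units.ext
  rw [si_JSmap_apply, si_AmapU_coe, id_diagS_apply, id_inclU_coe, id_diagS_apply, id_inclU_coe,
    si_Amap_incl]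
  rfl

theorem si_smul_JSmap (g : L ≃ₐ[E] L) (y : id_JS S E) :
    si_res E L g • si_JSmap S E L y = si_JSmap S E L y := by
  funext q
  apply Units.ext
  change si_res E L g • ((si_JSmap S E L y q : (id_A L q.1)ˣ) : id_A L q.1) = _
  rw [si_JSmap_apply, si_AmapU_coe, si_smul_Amap]

/-- **Descent for the `S`-adic ideles.** -/
theorem si_exists_JSmap_eq [IsGalois E L] (x : id_JS S L)
    (hx : ∀ g : L ≃ₐ[E] L, si_res E L g • x = x) : ∃ y : id_JS S E, si_JSmap S E L y = x := by
  have hq : ∀ q : S, ∃ u : (id_A E q.1)ˣ, si_AmapU E L q.1 u = x q := by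
    intro q
    have hxq : ∀ g : L ≃ₐ[E] L, si_res E L g • x q = x q := fun g => congrFun (hx g) q
    obtain ⟨y, hy⟩ := si_exists_Amap_eq E L q.1 ((x q : (id_A L q.1)ˣ) : id_A L q.1) (fun g => by
      have := congrArg (fun u : (id_A L q.1)ˣ => (u : id_A L q.1)) (hxq g)
      exact this)
    obtain ⟨y', hy'⟩ := si_exists_Amap_eq E L q.1 (((x q)⁻¹ : (id_A L q.1)ˣ) : id_A L q.1)
      (fun g => by
        have h1 : si_res E L g • (x q)⁻¹ = (x q)⁻¹ := by rw [smul_inv', hxq g]
        have := congrArg (fun u : (id_A L q.1)ˣ => (u : id_A L q.1)) h1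
        exact this)
    have h1 : y * y' = 1 := by
      apply si_Amap_injective E L q.1
      rw [map_mul, hy, hy', map_one, Units.mul_inv]
    refine ⟨⟨y, y', h1, by rw [mul_comm]; exact h1⟩, ?_⟩
    apply Units.ext
    exact hy
  choose u hu using hq
  exact ⟨u, funext hu⟩

/-! ### Hilbert 90: invariant classes are classes of invariant ideles -/

theorem si_res_smul_units (g : L ≃ₐ[E] L) (x : Lˣ) : si_res E L g • x = g • x := by
  apply Units.ext
  rfl

open groupCohomology in
/-- **Hilbert 90 descent.** A `Gal(L/E)`-invariant class of `C_S(L)` is the class of a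
`Gal(L/E)`-invariant element of `J_S(L)`. -/
theorem si_exists_invariant_lift [IsGalois E L] (hS : S.Nonempty) (c : id_C S L)
    (hc : ∀ g : L ≃ₐ[E] L, si_res E L g • c = c) :
    ∃ j : id_J S L, (∀ g : L ≃ₐ[E] L, si_res E L g • j = j) ∧ id_toC S L j = c := by
  obtain ⟨j₀, rfl⟩ := id_toC_surjective S L c
  have hl : ∀ g : L ≃ₐ[E] L, ∃ l : Lˣ, id_diag S L l = si_res E L g • j₀ / j₀ := by
    intro g
    rw [← id_toC_eq_one_iff, map_div, ← id_smul_toC, hc g, div_self']
  choose l hl using hl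
  have hcoc : IsMulCocycle₁ l := by
    intro g h
    apply id_diag_injective S L hS
    rw [map_mul, ← si_res_smul_units, ← id_smul_diag, hl, hl, hl, map_mul, mul_smul, smul_div']
    rw [div_mul_div_cancel]
  obtain ⟨β, hβ⟩ := isMulCoboundary₁_of_isMulCocycle₁_of_aut_to_units l hcoc
  refine ⟨j₀ / id_diag S L β, fun g => ?_, ?_⟩
  · have h1 : si_res E L g • j₀ = j₀ * id_diag S L (l g) := by
      rw [hl g, mul_div_cancel]
    have h2 : g • β = β * l g := by
      rw [← hβ g, mul_div_cancel]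
    rw [smul_div', id_smul_diag, si_res_smul_units, h1, h2, map_mul, mul_div_mul_right_eq_div]
  · rw [map_div, id_toC_diag, div_one]

end Fermat.Agent.S55
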