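/-
S55 (Poitou–Tate), block G2: **the second inequality for a cyclic layer of degree `p`**.
`E ⊆ L` number fields, `L/E` cyclic of odd prime degree `p`, unramified outside the nonempty
finite set `S` of rational primes.  Then `[C_S(L)^G : N_G C_S(L)] ≤ p` for `G = Gal(L/E)`
(acting on `id_C S L` through restriction of scalars).
Owner: helper10.  Prefix `si_`.
-/
import Mathlib
import Fermat.Agent.S55.SecondIneq.Layer
import Fermat.Agent.S55.SecondIneq.LayerDescent

set_option autoImplicit false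
set_option linter.unusedSectionVars false

open scoped NumberField TensorProduct
open IsDedekindDomain

noncomputable section

namespace Fermat.Agent.S55

variable (S : Finset Nat.Primes) (E L : Type) [Field E] [NumberField E] [Field L]
  [NumberField L] [Algebra E L]

/-- The action of `Gal(L/E)` on `C_S(L)` through restriction of scalars. -/
@[reducible] def si_layerAction : MulDistribMulAction (L ≃ₐ[E] L) (id_C S L) :=
  MulDistribMulAction.compHom (id_C S L) (si_res E L)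

/-- The class map: an ideal `𝔞` of `𝓞 E` goes to the class of the idele `(1, 𝔞 𝓞 L)`. -/
def si_psi (𝔞 : Ideal (𝓞 E)) : id_C S L := id_toC S L (id_inI S L (si_ext S E L 𝔞))

theorem si_modulus_ne_bot : si_modulus S E ≠ ⊥ := by
  rw [si_modulus, Ne, Ideal.span_singleton_eq_bot]
  exact_mod_cast si_M_ne_zero S

theorem si_modulus_ne_top (hS : S.Nonempty) : si_modulus S E ≠ ⊤ := by
  obtain ⟨q, hq⟩ := hS
  have hqp : (Ideal.span {((q : ℕ) : ℤ)}).IsMaximal :=
    PrincipalIdealRing.isMaximal_of_irreducible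
      (Nat.prime_iff_prime_int.mp q.2).irreducible
  obtain ⟨P, hPm, hPo⟩ := Ideal.exists_maximal_ideal_liesOver_of_isIntegral (S := 𝓞 E)
    (Ideal.span {((q : ℕ) : ℤ)})
  have h1 : (((q : ℕ) : ℤ) : 𝓞 E) ∈ P := by
    have : ((q : ℕ) : ℤ) ∈ P.under ℤ := by
      rw [← hPo.over]; exact Ideal.mem_span_singleton_self _
    simpa [Ideal.mem_under] using this
  have h2 : ((si_M S : ℕ) : 𝓞 E) ∈ P := by
    obtain ⟨k, hk⟩ := (dvd_pow_self (q : ℕ) two_ne_zero).trans (si_sq_dvd_M S hq)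
    rw [hk]
    push_cast
    push_cast at h1
    exact Ideal.mul_mem_right _ _ h1
  intro htop
  apply hPm.ne_top
  rw [eq_top_iff, ← htop, si_modulus, Ideal.span_singleton_le_iff_mem]
  exact h2


/-! ### The action and norms of invariant elements -/

attribute [local instance] si_layerAction

theorem si_layer_smul_def (g : L ≃ₐ[E] L) (c : id_C S L) : g • c = si_res E L g • c := rfl

theorem si_mem_range_mulN [FiniteDimensional E L] (y x : id_C S L)
    (h : ∏ g : L ≃ₐ[E] L, si_res E L g • x = y) :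
    y ∈ (hb_mulN (L ≃ₐ[E] L) (U := id_C S L)).range := ⟨x, h⟩

theorem si_mem_ker_mulD_iff (σ : L ≃ₐ[E] L) (c : id_C S L) :
    c ∈ (hb_mulD σ (U := id_C S L)).ker ↔ si_res E L σ • c = c := by
  rw [MonoidHom.mem_ker, hb_mulD_apply, div_eq_one]
  rfl

theorem si_prod_smul_of_invariant [FiniteDimensional E L] (x : id_C S L)
    (hx : ∀ g : L ≃ₐ[E] L, si_res E L g • x = x) :
    ∏ g : L ≃ₐ[E] L, si_res E L g • x = x ^ Fintype.card (L ≃ₐ[E] L) := by
  rw [Finset.prod_congr rfl (fun g _ => hx g), Finset.prod_const, Finset.card_univ]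

theorem si_pow_mem_range_mulN [FiniteDimensional E L] (x : id_C S L)
    (hx : ∀ g : L ≃ₐ[E] L, si_res E L g • x = x) :
    x ^ Fintype.card (L ≃ₐ[E] L) ∈ (hb_mulN (L ≃ₐ[E] L) (U := id_C S L)).range :=
  si_mem_range_mulN S E L _ x (si_prod_smul_of_invariant S E L x hx)

/-! ### Invariance and multiplicativity of the class map -/

theorem si_smul_psi (g : L ≃ₐ[E] L) (𝔞 : Ideal (𝓞 E)) :
    si_res E L g • si_psi S E L 𝔞 = si_psi S E L 𝔞 := by
  rw [si_psi, id_smul_toC, id_smul_inI, si_smul_ext]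

theorem si_psi_mul {𝔞 𝔟 : Ideal (𝓞 E)} (ha : 𝔞 ≠ ⊥) (hb : 𝔟 ≠ ⊥) :
    si_psi S E L (𝔞 * 𝔟) = si_psi S E L 𝔞 * si_psi S E L 𝔟 := by
  rw [si_psi, si_ext_mul S E L ha hb, map_mul, map_mul]
  rfl

theorem si_psi_pow {𝔞 : Ideal (𝓞 E)} (ha : 𝔞 ≠ ⊥) (n : ℕ) :
    si_psi S E L (𝔞 ^ n) = si_psi S E L 𝔞 ^ n := by
  rw [si_psi, si_ext_pow S E L ha, map_pow, map_pow]
  rfl

theorem si_ne_bot_of_isCoprime (hS : S.Nonempty) {𝔞 : Ideal (𝓞 E)}
    (h : IsCoprime 𝔞 (si_modulus S E)) : 𝔞 ≠ ⊥ := by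
  rintro rfl
  apply si_modulus_ne_top S E hS
  rw [Ideal.isCoprime_iff_sup_eq, bot_sup_eq] at h
  exact h

/-- The class of the `S`-part of an `E`-rational `S`-idele is invariant. -/
theorem si_smul_toC_inS_JSmap (g : L ≃ₐ[E] L) (w : id_JS S E) :
    si_res E L g • id_toC S L (id_inS S L (si_JSmap S E L w)) =
      id_toC S L (id_inS S L (si_JSmap S E L w)) := by
  rw [id_smul_toC, id_smul_inS, si_smul_JSmap]


/-! ### The ray consists of norms -/

theorem si_inI_div_eq (β : Lˣ) :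
    id_inI S L (id_div S L β) = id_diag S L β / id_inS S L (id_diagS S L β) := by
  rw [eq_div_iff_mul_eq']
  apply Prod.ext
  · simp [id_inS, id_inI]
  · simp [id_inS, id_inI]

variable {S E L} in
theorem si_psi_span_mem [IsGalois E L] (p : ℕ) [Fact p.Prime] (hp2 : p ≠ 2)
    (hcard : Fintype.card (L ≃ₐ[E] L) = p) (hunr : si_Unram S E L) (γ : 𝓞 E)
    (hγm : γ - 1 ∈ si_modulus S E) (hγ : γ ≠ 0) :
    si_psi S E L (Ideal.span {γ}) ∈ (hb_mulN (L ≃ₐ[E] L) (U := id_C S L)).range := by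
  have hγ0 : (γ : E) ≠ 0 := by
    intro h
    apply hγ
    exact NumberField.RingOfIntegers.ext h
  have hγ' : algebraMap E L (γ : E) ≠ 0 := by
    rw [Ne, map_eq_zero]; exact hγ0
  obtain ⟨w, hw⟩ := si_diagS_eq_pow_of_ray E S p hp2 γ hγ0 hγm
  have hL : Units.map (algebraMap E L).toMonoidHom (Units.mk0 (γ : E) hγ0) =
      Units.mk0 (algebraMap E L (γ : E)) hγ' := Units.ext rfl
  have h1 : id_diagS S L (Units.mk0 (algebraMap E L (γ : E)) hγ') = (si_JSmap S E L w) ^ p := by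
    rw [← hL, ← si_JSmap_diagS, hw, map_pow]
  have h2 : si_psi S E L (Ideal.span {γ}) =
      ((id_toC S L (id_inS S L (si_JSmap S E L w)))⁻¹) ^ p := by
    rw [si_psi, si_ext_span hunr γ hγ hγ', si_inI_div_eq, map_div, id_toC_diag, h1, map_pow,
      map_pow, one_div, inv_pow]
  rw [h2, ← hcard]
  apply si_pow_mem_range_mulN
  intro g
  rw [smul_inv', si_smul_toC_inS_JSmap]


/-! ### Primes below primes of degree one are norms -/

variable {S E L} in
theorem si_psi_under_mem [IsGalois E L] (hunr : si_Unram S E L) (P : Ideal (𝓞 L))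
    (hP : P.IsPrime) (hP0 : P ≠ ⊥) (hcop : IsCoprime (P.under (𝓞 E)) (si_modulus S E))
    (hf : P.inertiaDeg (𝓞 E) = 1) :
    si_psi S E L (P.under (𝓞 E)) ∈ (hb_mulN (L ≃ₐ[E] L) (U := id_C S L)).range := by
  have hPS : id_PrimeToS S L ⟨P, hP, hP0⟩ := by
    intro q hq hmem
    have h1 : ((q : ℕ) : 𝓞 E) ∈ P.under (𝓞 E) := by
      rw [Ideal.mem_under, map_natCast]
      exact hmem
    have h2 : ((si_M S : ℕ) : 𝓞 E) ∈ P.under (𝓞 E) := by
      obtain ⟨k, hk⟩ := (dvd_pow_self (q : ℕ) two_ne_zero).trans (si_sq_dvd_M S hq)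
      rw [hk]
      push_cast
      exact Ideal.mul_mem_right _ _ h1
    have h3 : si_modulus S E ≤ P.under (𝓞 E) := by
      rw [si_modulus, Ideal.span_singleton_le_iff_mem]; exact h2
    have h4 : P.under (𝓞 E) = ⊤ := by
      rw [Ideal.isCoprime_iff_sup_eq] at hcop
      rw [eq_top_iff, ← hcop]; exact sup_le le_rfl h3
    have h5 : (P.under (𝓞 E)).IsPrime := Ideal.IsPrime.under (𝓞 E) P
    exact h5.ne_top h4
  set w₀ : id_P S L := ⟨⟨P, hP, hP0⟩, hPS⟩ with hw₀
  have key := si_ext_under_of_deg_one hunr w₀ hf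
  have hu : (w₀.1.under (𝓞 E)).asIdeal = P.under (𝓞 E) := rfl
  rw [hu] at key
  apply si_mem_range_mulN S E L _
    (id_toC S L (id_inI S L (Multiplicative.ofAdd (Finsupp.single w₀ (1 : ℤ)))))
  rw [si_psi, key, map_prod, map_prod]
  refine Finset.prod_congr rfl (fun g _ => ?_)
  rw [id_smul_toC, id_smul_inI]

/-! ### Surjectivity of the class map modulo norms -/

theorem si_aux_div {G : Type*} [CommGroup G] (X A B : G) (p : ℕ) :
    X ^ p * A / (A * B ^ p) = (X / B) ^ p := by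
  rw [div_pow, mul_comm (X ^ p), mul_div_mul_left_eq_div]

variable {S E L} in
theorem si_psi_surj [IsGalois E L] (hS : S.Nonempty) (p : ℕ) [Fact p.Prime] (hp2 : p ≠ 2)
    (hcard : Fintype.card (L ≃ₐ[E] L) = p) (c : id_C S L)
    (hc : ∀ g : L ≃ₐ[E] L, si_res E L g • c = c) :
    ∃ 𝔞 : Ideal (𝓞 E), IsCoprime 𝔞 (si_modulus S E) ∧
      c / si_psi S E L 𝔞 ∈ (hb_mulN (L ≃ₐ[E] L) (U := id_C S L)).range := by
  obtain ⟨j, hj, rfl⟩ := si_exists_invariant_lift S E L hS c hc
  have hx : ∀ g : L ≃ₐ[E] L, si_res E L g • j.1 = j.1 := fun g => congrArg Prod.fst (hj g)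
  have hD : ∀ g : L ≃ₐ[E] L, si_res E L g • j.2 = j.2 := fun g => congrArg Prod.snd (hj g)
  obtain ⟨y, hy⟩ := si_exists_JSmap_eq S E L j.1 hx
  obtain ⟨α, w, hαw⟩ := si_exists_mul_eq_pow E S hS p hp2 y
  set αL : Lˣ := Units.map (algebraMap E L).toMonoidHom α with hαL
  have h1 : id_diagS S L αL * j.1 = (si_JSmap S E L w) ^ p := by
    rw [← hy, hαL, ← si_JSmap_diagS, ← map_mul, hαw, map_pow]
  have hαinv : ∀ g : L ≃ₐ[E] L, si_res E L g • αL = αL := by
    intro g
    apply Units.ext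
    change g (algebraMap E L α) = algebraMap E L α
    exact g.commutes _
  set D₂ : id_I S L := j.2 * id_div S L αL with hD₂
  have hD₂inv : ∀ g : L ≃ₐ[E] L, si_res E L g • D₂ = D₂ := by
    intro g
    rw [hD₂, smul_mul', hD g, id_smul_div, hαinv g]
  obtain ⟨𝔞, 𝔟, ha0, hb0, hacop, hbcop, hab⟩ := si_exists_ext_of_invariant D₂ hD₂inv
  have hp1 : p - 1 + 1 = p := Nat.sub_add_cancel (Fact.out : p.Prime).one_le
  refine ⟨𝔞 * 𝔟 ^ (p - 1), IsCoprime.mul_left hacop (IsCoprime.pow_left hbcop), ?_⟩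
  set X := id_toC S L (id_inS S L (si_JSmap S E L w)) with hX
  have hc1 : id_toC S L j = X ^ p * id_toC S L (id_inI S L D₂) := by
    have h3 : j * id_diag S L αL = id_inS S L ((si_JSmap S E L w) ^ p) * id_inI S L D₂ := by
      apply Prod.ext
      · simp [id_inS, id_inI, ← h1, mul_comm]
      · simp [id_inS, id_inI, hD₂]
    have h2 : id_toC S L j = id_toC S L (j * id_diag S L αL) := by
      rw [map_mul, id_toC_diag]
      exact (mul_one (id_toC S L j)).symm
    rw [h2, h3, map_mul, map_pow, map_pow]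
  have hψa : si_psi S E L 𝔞 = id_toC S L (id_inI S L D₂) * si_psi S E L 𝔟 := by
    rw [si_psi, ← hab, map_mul, map_mul]; rfl
  have hψ : si_psi S E L (𝔞 * 𝔟 ^ (p - 1)) =
      id_toC S L (id_inI S L D₂) * si_psi S E L 𝔟 ^ p := by
    rw [si_psi_mul S E L ha0 (pow_ne_zero _ hb0), si_psi_pow S E L hb0, hψa, mul_assoc,
      ← pow_succ', hp1]
  have hfin : id_toC S L j / si_psi S E L (𝔞 * 𝔟 ^ (p - 1)) =
      (X / si_psi S E L 𝔟) ^ p := by
    rw [hc1, hψ]
    exact si_aux_div (G := id_C S L) X _ _ p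
  rw [hfin, ← hcard]
  apply si_pow_mem_range_mulN
  intro g
  rw [smul_div', hX, si_smul_toC_inS_JSmap, si_smul_psi]


/-! ### The second inequality for a cyclic layer -/

/-- **The second inequality for a cyclic layer of odd prime degree `p`, unramified outside `S`**:
`[C_S(L)^G : N_G C_S(L)] ≤ p` for `G = Gal(L/E)`. -/
theorem si_layer_second_inequality (hS : S.Nonempty) (p : ℕ) [Fact p.Prime] (hp2 : p ≠ 2)
    [IsGalois E L] (hdeg : Module.finrank E L = p) (σ : L ≃ₐ[E] L)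
    (hσ : ∀ g : L ≃ₐ[E] L, g ∈ Subgroup.zpowers σ) (hunr : si_Unram S E L) :
    letI := si_layerAction S E L
    (hb_mulN (L ≃ₐ[E] L) (U := id_C S L)).range.relIndex (hb_mulD σ).ker ≤ p := by
  have hcard : Fintype.card (L ≃ₐ[E] L) = p := by
    rw [← Nat.card_eq_fintype_card, IsGalois.card_aut_eq_finrank, hdeg]
  have hfix : ∀ c : id_C S L, si_res E L σ • c = c → ∀ g : L ≃ₐ[E] L, si_res E L g • c = c := by
    intro c hc g
    have hle : Subgroup.zpowers σ ≤ MulAction.stabilizer (L ≃ₐ[E] L) c := by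
      rw [Subgroup.zpowers_le, MulAction.mem_stabilizer_iff]
      exact hc
    exact MulAction.mem_stabilizer_iff.mp (hle (hσ g))
  have key := si_relIndex_le_of_classMap (E := E) (L := L) (G := L ≃ₐ[E] L) (U := id_C S L) σ
    (si_modulus S E) (si_modulus_ne_bot S E) (si_modulus_ne_top S E hS) (si_psi S E L)
    (fun a _ => (si_mem_ker_mulD_iff S E L σ _).mpr (si_smul_psi S E L σ a))
    (fun a b ha hb => by
      rw [si_psi_mul S E L (si_ne_bot_of_isCoprime S E hS ha) (si_ne_bot_of_isCoprime S E hS hb),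
        div_self']
      exact one_mem _)
    (fun c hc => si_psi_surj hS p hp2 hcard c
      (hfix c ((si_mem_ker_mulD_iff S E L σ c).mp hc)))
    (fun γ hγm hγ => si_psi_span_mem p hp2 hcard hunr γ hγm hγ)
    (fun P hP hP0 hcop hf => si_psi_under_mem hunr P hP hP0 hcop hf)
  rw [hdeg] at key
  exact key


/-- `si_Unram` follows from the triviality of the inertia groups in `Gal(L/ℚ)` (the form in which
unramifiedness outside `S` comes out of the prelude's definition). -/
theorem si_unram_of_inertia_eq_bot [IsGalois E L]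
    (h : ∀ w : id_P S L, w.1.asIdeal.toAddSubgroup.inertia (L ≃ₐ[ℚ] L) = ⊥) :
    si_Unram S E L := by
  intro w g hg
  have h1 : si_res E L g ∈ w.1.asIdeal.toAddSubgroup.inertia (L ≃ₐ[ℚ] L) := by
    rw [AddSubgroup.mem_inertia]
    intro x
    exact hg x
  rw [h w, Subgroup.mem_bot] at h1
  ext x
  have := congrArg (fun τ : L ≃ₐ[ℚ] L => τ x) h1
  exact this

end Fermat.Agent.S55





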