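/-
S55 (Poitou–Tate), block G2: transport of the second inequality of a cyclic layer `L/E` to the
internal form used by the class-formation glue: `L` a number field (not necessarily normal over
`ℚ`), `H ≤ Aut(L/ℚ)` a subgroup of order `p` acting on `id_C S L` by the subgroup action,
`E := L^H`.  The statement for `Gal(L/E)` acting through restriction of scalars (`si_res`) is
taken as a hypothesis `hSI` of exactly the shape of `si_layer_second_inequality`.
Owner: helper19.  Prefix `sit_`.
-/
import Mathlib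
import Fermat.Agent.S55.SecondIneq.LayerIdeals
import Fermat.Agent.S55.Tate.HerbrandBridge
import Fermat.Agent.S55.Idele.Descent

set_option autoImplicit false
set_option linter.unusedSectionVars false

open scoped NumberField
open IsDedekindDomain

noncomputable section

namespace Fermat.Agent.S55

/-! ### Transport of the norm and of `σ - 1` along an isomorphism of acting groups -/

section Abstract

variable {Γ G U : Type} [Group Γ] [Fintype Γ] [Group G] [Fintype G] [CommGroup U]
  [MulDistribMulAction Γ U] [MulDistribMulAction G U]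

theorem sit_mulN_eq (e : Γ ≃* G) (he : ∀ (γ : Γ) (u : U), e γ • u = γ • u) :
    hb_mulN G (U := U) = hb_mulN Γ := by
  ext u
  simp only [hb_mulN_apply]
  exact (Fintype.prod_equiv e.toEquiv _ _ (fun γ => (he γ u).symm)).symm

omit [Fintype Γ] [Fintype G] in
theorem sit_mulD_eq (e : Γ ≃* G) (he : ∀ (γ : Γ) (u : U), e γ • u = γ • u) (s : Γ) :
    hb_mulD (e s) (U := U) = hb_mulD s := by
  ext u
  simp only [hb_mulD_apply, he]

theorem sit_relIndex_eq (e : Γ ≃* G) (he : ∀ (γ : Γ) (u : U), e γ • u = γ • u) (s : Γ) :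
    (hb_mulN G (U := U)).range.relIndex (hb_mulD (e s)).ker =
      (hb_mulN Γ (U := U)).range.relIndex (hb_mulD s).ker := by
  rw [sit_mulN_eq e he, sit_mulD_eq e he]

omit [Fintype Γ] [Fintype G] [CommGroup U] [MulDistribMulAction Γ U] [MulDistribMulAction G U] in
theorem sit_zpowers_map (e : Γ ≃* G) (s : Γ) (hs : ∀ x, x ∈ Subgroup.zpowers s) (g : G) :
    g ∈ Subgroup.zpowers (e s) := by
  obtain ⟨k, hk⟩ := Subgroup.mem_zpowers_iff.mp (hs (e.symm g))
  refine Subgroup.mem_zpowers_iff.mpr ⟨k, ?_⟩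
  rw [← map_zpow, hk, MulEquiv.apply_symm_apply]

end Abstract

/-! ### The fixed field of a subgroup of `Aut(L/ℚ)` -/

variable (S : Finset Nat.Primes) (L : Type) [Field L] [NumberField L] (H : Subgroup (L ≃ₐ[ℚ] L))

/-- The fixed field `L^H`, as a number field type. -/
abbrev sit_E : Type := ↥(IntermediateField.fixedField H)

/-- Artin: `L / L^H` is Galois (no normality of `L/ℚ` needed). -/
instance sit_isGalois : IsGalois (sit_E L H) L := by
  apply IsGalois.of_card_aut_eq_finrank
  rw [IntermediateField.finrank_fixedField_eq_card H]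
  exact (Nat.card_congr (IntermediateField.subgroupEquivAlgEquiv H).toEquiv).symm

theorem sit_finrank : Module.finrank (sit_E L H) L = Nat.card ↥H :=
  IntermediateField.finrank_fixedField_eq_card H

/-- `H ≃* Gal(L / L^H)`. -/
def sit_iso : ↥H ≃* (L ≃ₐ[sit_E L H] L) := IntermediateField.subgroupEquivAlgEquiv H

@[simp] theorem sit_iso_apply (h : ↥H) (x : L) : sit_iso L H h x = (h : L ≃ₐ[ℚ] L) x := rfl

theorem sit_res_iso (h : ↥H) : si_res (sit_E L H) L (sit_iso L H h) = (h : L ≃ₐ[ℚ] L) := by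
  ext x
  rfl

theorem sit_res_mem (g : L ≃ₐ[sit_E L H] L) : si_res (sit_E L H) L g ∈ H := by
  have := sit_res_iso L H ((sit_iso L H).symm g)
  rw [MulEquiv.apply_symm_apply] at this
  rw [this]
  exact ((sit_iso L H).symm g).2

/-- The action of `Gal(L/L^H)` on `id_C S L` through restriction of scalars. -/
abbrev sit_layerAction : MulDistribMulAction (L ≃ₐ[sit_E L H] L) (id_C S L) :=
  MulDistribMulAction.compHom (id_C S L) (si_res (sit_E L H) L)

theorem sit_iso_smul (h : ↥H) (c : id_C S L) :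
    letI := sit_layerAction S L H
    sit_iso L H h • c = h • c := by
  change si_res (sit_E L H) L (sit_iso L H h) • c = (h : L ≃ₐ[ℚ] L) • c
  rw [sit_res_iso]

/-- Trivial inertia in `H` outside `S` gives `si_Unram` for the layer `L / L^H`. -/
theorem sit_unram
    (hunr : ∀ v : id_P S L, ∀ σ ∈ H, (∀ x : 𝓞 L, σ • x - x ∈ v.1.asIdeal) → σ = 1) :
    si_Unram S (sit_E L H) L := by
  intro w g hg
  have h1 : si_res (sit_E L H) L g = 1 :=
    hunr w _ (sit_res_mem L H g) (fun x => hg x)
  ext x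
  have := congrArg (fun τ : L ≃ₐ[ℚ] L => τ x) h1
  simpa using this

/-- Trivial inertia groups in `Aut(L/ℚ)` outside `S` give the hypothesis of `sit_unram`. -/
theorem sit_unram_of_inertia
    (hunrQ : ∀ w : id_P S L, w.1.asIdeal.toAddSubgroup.inertia (L ≃ₐ[ℚ] L) = ⊥) :
    ∀ v : id_P S L, ∀ σ ∈ H, (∀ x : 𝓞 L, σ • x - x ∈ v.1.asIdeal) → σ = 1 := by
  intro v σ _ hσ
  have : σ ∈ v.1.asIdeal.toAddSubgroup.inertia (L ≃ₐ[ℚ] L) := AddSubgroup.mem_inertia.mpr hσ
  rw [hunrQ v] at this
  exact Subgroup.mem_bot.mp this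

/-- **Transport of the second inequality** to the internal form: `H ≤ Aut(L/ℚ)` of order `p`
with generator `s`, acting on `id_C S L` by the subgroup action. -/
theorem sit_second_inequality (p : ℕ) [Fintype ↥H] (hcard : Nat.card ↥H = p)
    (s : ↥H) (hs : ∀ x, x ∈ Subgroup.zpowers s)
    (hunr : ∀ v : id_P S L, ∀ σ ∈ H, (∀ x : 𝓞 L, σ • x - x ∈ v.1.asIdeal) → σ = 1)
    (hSI : Module.finrank (sit_E L H) L = p → ∀ σ : L ≃ₐ[sit_E L H] L,
      (∀ g, g ∈ Subgroup.zpowers σ) → si_Unram S (sit_E L H) L →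
      letI := sit_layerAction S L H
      (hb_mulN (L ≃ₐ[sit_E L H] L) (U := id_C S L)).range.relIndex (hb_mulD σ).ker ≤ p) :
    (hb_mulN ↥H (U := id_C S L)).range.relIndex (hb_mulD s).ker ≤ p := by
  let _ := sit_layerAction S L H
  have h1 := hSI ((sit_finrank L H).trans hcard) (sit_iso L H s)
    (sit_zpowers_map (sit_iso L H) s hs) (sit_unram S L H hunr)
  rwa [sit_relIndex_eq (sit_iso L H) (fun h c => sit_iso_smul S L H h c) s] at h1

/-! ### Unramifiedness in the `id_e = 1` form of the descent files -/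

/-- A subgroup of `Aut(L/ℚ)` acts faithfully on `𝓞 L`. -/
theorem sit_faithful : FaithfulSMul ↥H (𝓞 L) := by
  refine ⟨fun {g₁ g₂} h => Subtype.ext (AlgEquiv.ext fun y => ?_)⟩
  obtain ⟨a, b, hb, rfl⟩ := IsFractionRing.div_surjective (A := 𝓞 L) y
  have h1 : ∀ x : 𝓞 L, (g₁ : L ≃ₐ[ℚ] L) (algebraMap (𝓞 L) L x) =
      (g₂ : L ≃ₐ[ℚ] L) (algebraMap (𝓞 L) L x) := by
    intro x
    exact congrArg (fun c : 𝓞 L => (c : L)) (h x)
  rw [map_div₀, map_div₀, h1 a, h1 b]

/-- `H` is a Galois group of `𝓞 L / 𝓞 K` when `K = L^H` (`id_IsGal`). -/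
theorem sit_isGaloisGroup (K : Type) [Field K] [NumberField K] [Algebra K L]
    (hH : id_IsGal K L H) : IsGaloisGroup ↥H (𝓞 K) (𝓞 L) :=
  { faithful := sit_faithful L H
    commutes := hH.smulCommClass
    isInvariant := hH.isInvariant }

/-- Ramification index one outside `S` (the hypothesis `hunr` of the descent files) gives trivial
inertia in `H` outside `S` (the hypothesis of `sit_second_inequality`). -/
theorem sit_hunr_of_e (K : Type) [Field K] [NumberField K] [Algebra K L]
    (hH : id_IsGal K L H) (he : ∀ w : id_P S L, id_e K L w.1 = 1) :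
    ∀ v : id_P S L, ∀ σ ∈ H, (∀ x : 𝓞 L, σ • x - x ∈ v.1.asIdeal) → σ = 1 := by
  intro v σ hσ hx
  have : IsGaloisGroup ↥H (𝓞 K) (𝓞 L) := sit_isGaloisGroup L H K hH
  have : Finite ↥H := inferInstance
  have h1 : Nat.card ↥(Ideal.inertia ↥H v.1.asIdeal) = 1 := by
    rw [Ideal.card_inertia_eq_ramificationIdxIn (id_under K L v.1).asIdeal v.1.asIdeal,
      Ideal.ramificationIdxIn_eq_ramificationIdx (id_under K L v.1).asIdeal v.1.asIdeal ↥H,
      ← Ideal.ramificationIdx'_eq_ramificationIdx _ _ (id_under K L v.1).ne_bot]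
    exact he v
  have h2 : (⟨σ, hσ⟩ : ↥H) ∈ Ideal.inertia ↥H v.1.asIdeal := by
    rw [Ideal.inertia, AddSubgroup.mem_inertia]
    intro x
    exact hx x
  rw [Subgroup.card_eq_one.mp h1] at h2
  exact congrArg Subtype.val (Subgroup.mem_bot.mp h2)

/-- The second inequality in the `id_IsGal` / `id_e = 1` language of the descent files. -/
theorem sit_second_inequality_of_isGal (K : Type) [Field K] [NumberField K] [Algebra K L]
    (hH : id_IsGal K L H) (he : ∀ w : id_P S L, id_e K L w.1 = 1)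
    (p : ℕ) [Fintype ↥H] (hcard : Nat.card ↥H = p)
    (s : ↥H) (hs : ∀ x, x ∈ Subgroup.zpowers s)
    (hSI : Module.finrank (sit_E L H) L = p → ∀ σ : L ≃ₐ[sit_E L H] L,
      (∀ g, g ∈ Subgroup.zpowers σ) → si_Unram S (sit_E L H) L →
      letI := sit_layerAction S L H
      (hb_mulN (L ≃ₐ[sit_E L H] L) (U := id_C S L)).range.relIndex (hb_mulD σ).ker ≤ p) :
    (hb_mulN ↥H (U := id_C S L)).range.relIndex (hb_mulD s).ker ≤ p :=
  sit_second_inequality S L H p hcard s hs (sit_hunr_of_e S L H K hH he) hSI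

end Fermat.Agent.S55
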