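/-
S55 (Poitou–Tate), block G2: **the second inequality, final forms**.
* `si_unram_of_e_eq_one`: ramification index one outside `S` (helper20's `id_e`) gives the
  trivial-inertia hypothesis `si_Unram`;
* `si_second_inequality_subgroup`: for a number field `L`, a subgroup `H ≤ Aut(L/ℚ)` of odd prime
  order `p` with generator `s`, with trivial inertia outside the nonempty set `S`:
  `[C_S(L)^H : N_H C_S(L)] ≤ p` (the form (SI) of the class-formation glue), obtained from
  `si_layer_second_inequality` through helper19's transport `sit_second_inequality`.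
Owner: helper10.  Prefix `si_`.
-/
import Mathlib
import Fermat.Agent.S55.SecondIneq.LayerMain
import Fermat.Agent.S55.SecondIneq.LayerTransport
import Fermat.Agent.S55.Idele.Transition

set_option autoImplicit false
set_option linter.unusedSectionVars false

open scoped NumberField
open IsDedekindDomain

noncomputable section

namespace Fermat.Agent.S55

/-- Ramification index one outside `S` gives trivial inertia outside `S`. -/
theorem si_unram_of_e_eq_one (S : Finset Nat.Primes) (E L : Type) [Field E] [NumberField E]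
    [Field L] [NumberField L] [Algebra E L] [IsGalois E L]
    (he : ∀ w : id_P S L, id_e E L w.1 = 1) : si_Unram S E L := by
  intro w g hg
  have : w.1.asIdeal.LiesOver (w.1.under (𝓞 E)).asIdeal := ⟨rfl⟩
  have hcard : Nat.card (w.1.asIdeal.inertia (L ≃ₐ[E] L)) = 1 := by
    rw [Ideal.card_inertia_eq_ramificationIdxIn (G := L ≃ₐ[E] L) (w.1.under (𝓞 E)).asIdeal
        w.1.asIdeal,
      Ideal.ramificationIdxIn_eq_ramificationIdx (w.1.under (𝓞 E)).asIdeal w.1.asIdeal
        (L ≃ₐ[E] L),
      ← Ideal.ramificationIdx'_eq_ramificationIdx _ _ (w.1.under (𝓞 E)).ne_bot]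
    exact he w
  have hbot := (Subgroup.card_eq_one).mp hcard
  have hg' : g ∈ w.1.asIdeal.inertia (L ≃ₐ[E] L) := AddSubgroup.mem_inertia.mpr hg
  rw [hbot] at hg'
  exact Subgroup.mem_bot.mp hg'

/-- **The second inequality (SI)** in the internal form: `L` a number field, `H ≤ Aut(L/ℚ)` of odd
prime order `p` generated by `s`, trivial inertia in `H` at the primes of `L` outside the nonempty
set `S`.  Then `[C_S(L)^H : N_H C_S(L)] ≤ p`. -/
theorem si_second_inequality_subgroup (S : Finset Nat.Primes) (hS : S.Nonempty) (p : ℕ)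
    [Fact p.Prime] (hp2 : p ≠ 2) (L : Type) [Field L] [NumberField L]
    (H : Subgroup (L ≃ₐ[ℚ] L)) [Fintype ↥H] (hcard : Nat.card ↥H = p)
    (s : ↥H) (hs : ∀ x, x ∈ Subgroup.zpowers s)
    (hunr : ∀ v : id_P S L, ∀ σ ∈ H, (∀ x : 𝓞 L, σ • x - x ∈ v.1.asIdeal) → σ = 1) :
    (hb_mulN ↥H (U := id_C S L)).range.relIndex (hb_mulD s).ker ≤ p :=
  sit_second_inequality S L H p hcard s hs hunr
    (fun hdeg σ hσ hun => si_layer_second_inequality S (sit_E L H) L hS p hp2 hdeg σ hσ hun)

end Fermat.Agent.S55
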