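/-
S55 (Poitou–Tate), blocks G1/G2: units of a complete ring with a cyclic group of automorphisms
possessing an element of trace one.  For an ideal `I` stable under `σ`, `S` being `I`-adically
complete, the principal units `1 + I` have trivial `Ĥ⁰` and `H¹` (norm surjective onto the
fixed principal units, Hilbert 90); with the two residue statements as hypotheses the same holds
for all units.  Pure algebra; engine = `lf_filtered_surj` (helper26).
Owner: helper10.  Prefix `un_`.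
-/
import Mathlib
import Fermat.Agent.S55.Local.Filtered

set_option autoImplicit false

namespace Fermat.Agent.S55

open Finset

section Basic

variable {S : Type*} [CommRing S]

/-- The action of a ring endomorphism on units. -/
def un_act (σ : S →+* S) : Sˣ →* Sˣ := Units.map (σ : S →* S)

@[simp] theorem un_act_coe (σ : S →+* S) (u : Sˣ) : ((un_act σ u : Sˣ) : S) = σ u := rfl

/-- The "norm" `u ↦ ∏_{i<n} σ^i u` on units. -/
def un_N (σ : S →+* S) (n : ℕ) : Sˣ →* Sˣ := ∏ i ∈ range n, un_act (σ ^ i)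

/-- The map `u ↦ σ u / u` on units. -/
def un_D (σ : S →+* S) : Sˣ →* Sˣ := un_act σ / MonoidHom.id Sˣ

theorem un_N_apply (σ : S →+* S) (n : ℕ) (u : Sˣ) :
    un_N σ n u = ∏ i ∈ range n, un_act (σ ^ i) u := by
  simp [un_N]

theorem un_N_coe (σ : S →+* S) (n : ℕ) (u : Sˣ) :
    ((un_N σ n u : Sˣ) : S) = ∏ i ∈ range n, (σ ^ i) (u : S) := by
  rw [un_N_apply, Units.coe_prod]
  rfl

theorem un_D_apply (σ : S →+* S) (u : Sˣ) : un_D σ u = un_act σ u / u := rfl

theorem un_D_eq_one_iff (σ : S →+* S) (u : Sˣ) : un_D σ u = 1 ↔ σ (u : S) = u := by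
  rw [un_D_apply, div_eq_one, Units.ext_iff]
  rfl

theorem un_act_pow_succ (σ : S →+* S) (i : ℕ) (u : Sˣ) :
    un_act σ (un_act (σ ^ i) u) = un_act (σ ^ (i + 1)) u := by
  apply Units.ext
  simp only [un_act_coe]
  rw [pow_succ']
  rfl

theorem un_D_N (σ : S →+* S) (n : ℕ) (hσ : ∀ x, (σ ^ n) x = x) (u : Sˣ) :
    un_D σ (un_N σ n u) = 1 := by
  rw [un_D_apply, div_eq_one, un_N_apply, map_prod]
  simp only [un_act_pow_succ]
  have e1 := prod_range_succ' (fun i => un_act (σ ^ i) u) n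
  have e2 := prod_range_succ (fun i => un_act (σ ^ i) u) n
  have e3 : un_act (σ ^ n) u = un_act (σ ^ 0) u := by
    apply Units.ext
    simp only [un_act_coe, hσ, pow_zero]
    rfl
  rw [e1] at e2
  simp only [e3] at e2
  exact mul_right_cancel e2

theorem un_N_D (σ : S →+* S) (n : ℕ) (hσ : ∀ x, (σ ^ n) x = x) (u : Sˣ) :
    un_N σ n (un_D σ u) = 1 := by
  rw [un_N_apply]
  have h : ∀ i, un_act (σ ^ i) (un_D σ u) = un_act (σ ^ (i + 1)) u / un_act (σ ^ i) u := by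
    intro i
    rw [un_D_apply, map_div]
    congr 1
  simp only [h]
  rw [prod_range_div (fun i => un_act (σ ^ i) u) n, div_eq_one]
  apply Units.ext
  simp only [un_act_coe, hσ, pow_zero]
  rfl

/-- `∏ (1 + yᵢ) ≡ 1 + ∑ yᵢ` modulo `J²` when all `yᵢ ∈ J`. -/
theorem un_prod_one_add {ι : Type*} (J : Ideal S) (s : Finset ι) (y : ι → S)
    (hy : ∀ i ∈ s, y i ∈ J) : ∏ i ∈ s, (1 + y i) - (1 + ∑ i ∈ s, y i) ∈ J ^ 2 := by
  classical
  induction s using Finset.induction_on with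
  | empty => simp
  | insert j s hj ih =>
    rw [prod_insert hj, sum_insert hj]
    have h1 := ih (fun i hi => hy i (mem_insert_of_mem hi))
    have hyj : y j ∈ J := hy j (mem_insert_self j s)
    have hsum : ∑ i ∈ s, y i ∈ J := J.sum_mem (fun i hi => hy i (mem_insert_of_mem hi))
    have h2 : y j * ∑ i ∈ s, y i ∈ J ^ 2 := by
      rw [pow_two]; exact Ideal.mul_mem_mul hyj hsum
    have h3 : (1 + y j) * (∏ i ∈ s, (1 + y i) - (1 + ∑ i ∈ s, y i)) ∈ J ^ 2 :=
      Ideal.mul_mem_left _ _ h1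
    have : (1 + y j) * ∏ i ∈ s, (1 + y i) - (1 + (y j + ∑ i ∈ s, y i)) =
        (1 + y j) * (∏ i ∈ s, (1 + y i) - (1 + ∑ i ∈ s, y i)) + y j * ∑ i ∈ s, y i := by ring
    rw [this]
    exact Ideal.add_mem _ h3 h2

end Basic

section Filtration

variable {S : Type*} [CommRing S] (I : Ideal S)

/-- The principal units of level `k`: `1 + I^(k+1)`. -/
def un_Fil (k : ℕ) : Subgroup Sˣ where
  carrier := {u | (u : S) - 1 ∈ I ^ (k + 1)}
  one_mem' := by simp
  mul_mem' := by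
    intro a b ha hb
    change (a : S) - 1 ∈ I ^ (k + 1) at ha
    change (b : S) - 1 ∈ I ^ (k + 1) at hb
    change ((a * b : Sˣ) : S) - 1 ∈ I ^ (k + 1)
    rw [Units.val_mul]
    have : (a : S) * b - 1 = a * ((b : S) - 1) + ((a : S) - 1) := by ring
    rw [this]
    exact Ideal.add_mem _ (Ideal.mul_mem_left _ _ hb) ha
  inv_mem' := by
    intro a ha
    change (a : S) - 1 ∈ I ^ (k + 1) at ha
    change ((a⁻¹ : Sˣ) : S) - 1 ∈ I ^ (k + 1)
    have : ((a⁻¹ : Sˣ) : S) - 1 = -((a⁻¹ : Sˣ) : S) * ((a : S) - 1) := by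
      have h1 : ((a⁻¹ : Sˣ) : S) * (a : S) = 1 := by simp
      linear_combination (1 : S) * h1
    rw [this]
    exact Ideal.mul_mem_left _ _ ha

theorem un_mem_Fil {k : ℕ} {u : Sˣ} : u ∈ un_Fil I k ↔ (u : S) - 1 ∈ I ^ (k + 1) := Iff.rfl

theorem un_Fil_antitone {k l : ℕ} (h : k ≤ l) : un_Fil I l ≤ un_Fil I k := fun _ hu =>
  Ideal.pow_le_pow_right (Nat.succ_le_succ h) hu

theorem un_div_mem_Fil {k : ℕ} {u w : Sˣ} (h : (u : S) - w ∈ I ^ (k + 1)) :
    u / w ∈ un_Fil I k := by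
  rw [un_mem_Fil]
  have : ((u / w : Sˣ) : S) - 1 = ((w⁻¹ : Sˣ) : S) * ((u : S) - w) := by
    have h1 : ((w⁻¹ : Sˣ) : S) * (w : S) = 1 := by simp
    rw [div_eq_mul_inv, Units.val_mul]
    linear_combination (1 : S) * h1
  rw [this]
  exact Ideal.mul_mem_left _ _ h

theorem un_isUnit_of_sub_one_mem [IsAdicComplete I S] {y : S} (h : y - 1 ∈ I) : IsUnit y := by
  have h1 : y - 1 ∈ (⊥ : Ideal S).jacobson := IsAdicComplete.le_jacobson_bot I h
  have h2 := (Ideal.mem_jacobson_bot.mp h1) 1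
  simpa using h2

/-- Separatedness of the filtration. -/
theorem un_Fil_sep [IsAdicComplete I S] (x : Sˣ) (h : ∀ k, x ∈ un_Fil I k) : x = 1 := by
  apply Units.ext
  have : (x : S) - 1 = 0 := by
    apply IsHausdorff.haus (I := I) (M := S) inferInstance
    intro n
    rw [SModEq.zero, smul_eq_mul, Ideal.mul_top]
    exact Ideal.pow_le_pow_right (Nat.le_succ n) (h n)
  simpa [sub_eq_zero] using this

/-- Completeness of the filtration: infinite products converge. -/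
theorem un_Fil_complete [IsAdicComplete I S] (x : ℕ → Sˣ) (hx : ∀ i, x i ∈ un_Fil I i) :
    ∃ y : Sˣ, ∀ k, y / ∏ i ∈ range k, x i ∈ un_Fil I k := by
  set P : ℕ → Sˣ := fun k => ∏ i ∈ range k, x i with hP
  have hstep : ∀ k, ((P (k + 1) : Sˣ) : S) - P k ∈ I ^ (k + 1) := by
    intro k
    have : ((P (k + 1) : Sˣ) : S) - P k = (P k : S) * ((x k : S) - 1) := by
      simp only [hP, prod_range_succ, Units.val_mul]
      ring
    rw [this]
    exact Ideal.mul_mem_left _ _ (hx k)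
  have hmn : ∀ m n, m ≤ n → ((P n : Sˣ) : S) - P m ∈ I ^ (m + 1) := by
    intro m n hmn
    induction n, hmn using Nat.le_induction with
    | base => simp
    | succ n hmn ih =>
      have : ((P (n + 1) : Sˣ) : S) - P m = (((P (n + 1) : Sˣ) : S) - P n) + ((P n : S) - P m) := by
        ring
      rw [this]
      exact Ideal.add_mem _ (Ideal.pow_le_pow_right (Nat.succ_le_succ hmn) (hstep n)) ih
  obtain ⟨L, hL⟩ := IsPrecomplete.prec (I := I) (M := S) inferInstance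
    (f := fun k => ((P k : Sˣ) : S)) (by
      intro m n hmn'
      rw [SModEq.sub_mem, smul_eq_mul, Ideal.mul_top]
      have := hmn m n hmn'
      have h2 : ((P m : Sˣ) : S) - P n = -(((P n : Sˣ) : S) - P m) := by ring
      rw [h2]
      exact neg_mem_iff.mpr (Ideal.pow_le_pow_right (Nat.le_succ m) this))
  have hLk : ∀ k, L - (P k : S) ∈ I ^ (k + 1) := by
    intro k
    have h1 := hL (k + 1)
    rw [SModEq.sub_mem, smul_eq_mul, Ideal.mul_top] at h1
    have : L - (P k : S) = -(((P (k + 1) : Sˣ) : S) - L) + (((P (k + 1) : Sˣ) : S) - P k) := by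
      ring
    rw [this]
    exact Ideal.add_mem _ (neg_mem_iff.mpr h1) (hstep k)
  have hL1 : L - 1 ∈ I := by
    have := hLk 0
    simpa [hP] using this
  obtain ⟨y, hy⟩ := un_isUnit_of_sub_one_mem I hL1
  refine ⟨y, fun k => un_div_mem_Fil I ?_⟩
  rw [hy]
  exact hLk k

end Filtration

section Steps

variable {S : Type*} [CommRing S] (I : Ideal S) (σ : S →+* S)

theorem un_pow_apply_succ (i : ℕ) (x : S) : (σ ^ (i + 1)) x = σ ((σ ^ i) x) := by
  rw [pow_succ']; rfl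

theorem un_pow_fixed {a : S} (ha : σ a = a) (i : ℕ) : (σ ^ i) a = a := by
  induction i with
  | zero => rfl
  | succ i ih => rw [un_pow_apply_succ, ih, ha]

theorem un_map_mem_pow (hI : ∀ x ∈ I, σ x ∈ I) (m : ℕ) {x : S} (hx : x ∈ I ^ m) :
    σ x ∈ I ^ m := by
  have h1 : I ≤ (I.comap σ) := fun y hy => hI y hy
  have h2 : I ^ m ≤ (I ^ m).comap σ := (Ideal.pow_right_mono h1 m).trans (Ideal.le_comap_pow σ m)
  exact h2 hx

theorem un_pow_mem_pow (hI : ∀ x ∈ I, σ x ∈ I) (m i : ℕ) {x : S} (hx : x ∈ I ^ m) :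
    (σ ^ i) x ∈ I ^ m := by
  induction i with
  | zero => exact hx
  | succ i ih => rw [un_pow_apply_succ]; exact un_map_mem_pow I σ hI m ih

theorem un_act_mem_Fil (hI : ∀ x ∈ I, σ x ∈ I) (k i : ℕ) {u : Sˣ} (hu : u ∈ un_Fil I k) :
    un_act (σ ^ i) u ∈ un_Fil I k := by
  rw [un_mem_Fil] at hu ⊢
  have := un_pow_mem_pow I σ hI (k + 1) i hu
  rw [map_sub, map_one] at this
  exact this

theorem un_N_mem_Fil (hI : ∀ x ∈ I, σ x ∈ I) (n k : ℕ) {u : Sˣ} (hu : u ∈ un_Fil I k) :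
    un_N σ n u ∈ un_Fil I k := by
  rw [un_N_apply]
  exact Subgroup.prod_mem _ (fun i _ => un_act_mem_Fil I σ hI k i hu)

theorem un_D_mem_Fil (hI : ∀ x ∈ I, σ x ∈ I) (k : ℕ) {u : Sˣ} (hu : u ∈ un_Fil I k) :
    un_D σ u ∈ un_Fil I k := by
  rw [un_D_apply]
  have h1 := un_act_mem_Fil I σ hI k 1 hu
  rw [pow_one] at h1
  exact Subgroup.div_mem _ h1 hu

theorem un_sq_le (k : ℕ) : (I ^ (k + 1)) ^ 2 ≤ I ^ (k + 2) := by
  rw [← pow_mul]
  exact Ideal.pow_le_pow_right (by omega)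

/-- The graded step for the norm. -/
theorem un_stepN [IsAdicComplete I S] (n : ℕ) (θ : S)
    (hθ : ∑ i ∈ range n, (σ ^ i) θ = 1) (k : ℕ) (u : Sˣ) (hu : u ∈ un_Fil I k)
    (hDu : un_D σ u = 1) : ∃ w ∈ un_Fil I k, u / un_N σ n w ∈ un_Fil I (k + 1) := by
  rw [un_mem_Fil] at hu
  rw [un_D_eq_one_iff] at hDu
  set a : S := (u : S) - 1 with ha
  have hσa : σ a = a := by rw [ha, map_sub, map_one, hDu]
  have haθ : a * θ ∈ I ^ (k + 1) := Ideal.mul_mem_right _ _ hu
  have hunit : IsUnit (1 + a * θ) := un_isUnit_of_sub_one_mem I (by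
    have : 1 + a * θ - 1 = a * θ := by ring
    rw [this]
    exact Ideal.pow_le_self (Nat.succ_ne_zero k) haθ)
  obtain ⟨w, hw⟩ := hunit
  have hwF : w ∈ un_Fil I k := by
    rw [un_mem_Fil, hw]
    have : 1 + a * θ - 1 = a * θ := by ring
    rw [this]; exact haθ
  refine ⟨w, hwF, un_div_mem_Fil I ?_⟩
  rw [un_N_coe, hw]
  have h1 : ∀ i, (σ ^ i) (1 + a * θ) = 1 + a * (σ ^ i) θ := by
    intro i
    rw [map_add, map_one, map_mul, un_pow_fixed σ hσa]
  simp only [h1]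
  have h2 := un_prod_one_add (I ^ (k + 1)) (range n) (fun i => a * (σ ^ i) θ)
    (fun i _ => Ideal.mul_mem_right _ _ hu)
  rw [← mul_sum, hθ, mul_one] at h2
  have h3 : (u : S) - ∏ i ∈ range n, (1 + a * (σ ^ i) θ) =
      -(∏ i ∈ range n, (1 + a * (σ ^ i) θ) - (1 + a)) := by rw [ha]; ring
  rw [h3]
  exact neg_mem_iff.mpr (un_sq_le I k h2)

/-- The homotopy identity: for `c₀ = ∑_{i<n} (∑_{j<i} σ^j a) σ^i θ` one has
`σ c₀ = c₀ + Tr(a) θ - a`. -/
theorem un_homotopy (n : ℕ) (hσ : ∀ x, (σ ^ n) x = x) (θ : S)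
    (hθ : ∑ i ∈ range n, (σ ^ i) θ = 1) (a : S) :
    σ (∑ i ∈ range n, (∑ j ∈ range i, (σ ^ j) a) * (σ ^ i) θ) =
      ∑ i ∈ range n, (∑ j ∈ range i, (σ ^ j) a) * (σ ^ i) θ +
        (∑ j ∈ range n, (σ ^ j) a) * θ - a := by
  set s : ℕ → S := fun i => ∑ j ∈ range i, (σ ^ j) a with hs
  have hs1 : ∀ i, σ (s i) = s (i + 1) - a := by
    intro i
    simp only [hs]
    rw [map_sum, sum_range_succ' (fun j => (σ ^ j) a) i]
    simp only [un_pow_apply_succ]
    change _ = _ + (σ ^ 0) a - a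
    rw [pow_zero]
    change _ = _ + a - a
    ring
  have h1 : σ (∑ i ∈ range n, s i * (σ ^ i) θ) =
      ∑ i ∈ range n, s (i + 1) * (σ ^ (i + 1)) θ - a * ∑ i ∈ range n, (σ ^ (i + 1)) θ := by
    rw [map_sum, mul_sum, ← sum_sub_distrib]
    refine sum_congr rfl (fun i _ => ?_)
    rw [map_mul, hs1, un_pow_apply_succ]
    ring
  have h2 : ∑ i ∈ range n, (σ ^ (i + 1)) θ = 1 := by
    have e1 := sum_range_succ' (fun i => (σ ^ i) θ) n
    have e2 := sum_range_succ (fun i => (σ ^ i) θ) n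
    rw [e1] at e2
    simp only [hσ, pow_zero] at e2
    have e3 : (1 : S →+* S) θ = θ := rfl
    rw [e3] at e2
    rw [add_right_cancel e2, hθ]
  have h3 : ∑ i ∈ range n, s (i + 1) * (σ ^ (i + 1)) θ =
      ∑ i ∈ range n, s i * (σ ^ i) θ + s n * θ := by
    have e1 := sum_range_succ' (fun i => s i * (σ ^ i) θ) n
    have e2 := sum_range_succ (fun i => s i * (σ ^ i) θ) n
    rw [e1] at e2
    simp only [hσ] at e2
    have e3 : s 0 = 0 := by simp [hs]
    rw [e3, zero_mul, add_zero] at e2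
    exact e2
  rw [h1, h2, h3, mul_one]

/-- The graded step for `D`. -/
theorem un_stepD [IsAdicComplete I S] (hI : ∀ x ∈ I, σ x ∈ I) (n : ℕ)
    (hσ : ∀ x, (σ ^ n) x = x) (θ : S)
    (hθ : ∑ i ∈ range n, (σ ^ i) θ = 1) (k : ℕ) (u : Sˣ) (hu : u ∈ un_Fil I k)
    (hNu : un_N σ n u = 1) : ∃ w ∈ un_Fil I k, u / un_D σ w ∈ un_Fil I (k + 1) := by
  rw [un_mem_Fil] at hu
  set a : S := (u : S) - 1 with ha
  have hua : (u : S) = 1 + a := by rw [ha]; ring
  -- the trace of `a` lies in `J²`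
  have htr : ∑ j ∈ range n, (σ ^ j) a ∈ (I ^ (k + 1)) ^ 2 := by
    have h1 := congrArg (fun v : Sˣ => (v : S)) hNu
    simp only [un_N_coe, Units.val_one] at h1
    have h2 : ∀ i, (σ ^ i) (u : S) = 1 + (σ ^ i) a := by
      intro i; rw [hua, map_add, map_one]
    simp only [h2] at h1
    have h3 := un_prod_one_add (I ^ (k + 1)) (range n) (fun i => (σ ^ i) a)
      (fun i _ => un_pow_mem_pow I σ hI (k + 1) i hu)
    rw [h1] at h3
    have : (1 : S) - (1 + ∑ i ∈ range n, (σ ^ i) a) = -∑ i ∈ range n, (σ ^ i) a := by ring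
    rw [this] at h3
    exact neg_mem_iff.mp h3
  set c₀ : S := ∑ i ∈ range n, (∑ j ∈ range i, (σ ^ j) a) * (σ ^ i) θ with hc₀
  have hc₀J : c₀ ∈ I ^ (k + 1) := by
    refine Ideal.sum_mem _ (fun i _ => Ideal.mul_mem_right _ _ ?_)
    exact Ideal.sum_mem _ (fun j _ => un_pow_mem_pow I σ hI (k + 1) j hu)
  have hhom := un_homotopy σ n hσ θ hθ a
  rw [← hc₀] at hhom
  have hunit : IsUnit (1 - c₀) := un_isUnit_of_sub_one_mem I (by
    have : 1 - c₀ - 1 = -c₀ := by ring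
    rw [this]
    exact neg_mem_iff.mpr (Ideal.pow_le_self (Nat.succ_ne_zero k) hc₀J))
  obtain ⟨w, hw⟩ := hunit
  have hwF : w ∈ un_Fil I k := by
    rw [un_mem_Fil, hw]
    have : 1 - c₀ - 1 = -c₀ := by ring
    rw [this]; exact neg_mem_iff.mpr hc₀J
  refine ⟨w, hwF, ?_⟩
  -- `u / (σ w / w) = (u * w) / σ w`
  have hdiv : u / un_D σ w = (u * w) / un_act σ w := by
    rw [un_D_apply, div_div_eq_mul_div]
  rw [hdiv]
  apply un_div_mem_Fil
  rw [Units.val_mul, un_act_coe, hw, hua, map_sub, map_one, hhom]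
  have : (1 + a) * (1 - c₀) - (1 - (c₀ + (∑ j ∈ range n, (σ ^ j) a) * θ - a)) =
      (∑ j ∈ range n, (σ ^ j) a) * θ - a * c₀ := by ring
  rw [this]
  refine un_sq_le I k (Ideal.sub_mem _ (Ideal.mul_mem_right _ _ htr) ?_)
  rw [pow_two]
  exact Ideal.mul_mem_mul hu hc₀J

/-- **Principal units.** If `S` is `I`-adically complete, `I` is `σ`-stable, `σ^n = 1` and there
is an element of trace one, then on `1 + I` the norm is onto the `σ`-fixed elements and every
element of norm one is of the form `σ y / y`. -/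
theorem un_principal_exact [IsAdicComplete I S] (hI : ∀ x ∈ I, σ x ∈ I) (n : ℕ)
    (hσ : ∀ x, (σ ^ n) x = x) (θ : S) (hθ : ∑ i ∈ range n, (σ ^ i) θ = 1) :
    (∀ u ∈ un_Fil I 0, un_D σ u = 1 → ∃ y ∈ un_Fil I 0, un_N σ n y = u) ∧
      (∀ u ∈ un_Fil I 0, un_N σ n u = 1 → ∃ y ∈ un_Fil I 0, un_D σ y = u) :=
  lf_filtered_exact (un_N σ n) (un_D σ) (un_Fil I) (un_Fil_sep I)
    (fun k _ hx => un_N_mem_Fil I σ hI n k hx) (fun k _ hx => un_D_mem_Fil I σ hI k hx)
    (un_Fil_complete I) (un_D_N σ n hσ) (un_N_D σ n hσ)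
    (fun k u hu hDu => un_stepN I σ n θ hθ k u hu hDu)
    (fun k u hu hNu => un_stepD I σ hI n hσ θ hθ k u hu hNu)

/-- **Norm surjectivity on units.** With the residue statement `hres` (every `σ`-fixed unit is
congruent to a norm modulo `I`), every `σ`-fixed unit is a norm. -/
theorem un_norm_surj [IsAdicComplete I S] (hI : ∀ x ∈ I, σ x ∈ I) (n : ℕ)
    (hσ : ∀ x, (σ ^ n) x = x) (θ : S) (hθ : ∑ i ∈ range n, (σ ^ i) θ = 1)
    (hres : ∀ u : Sˣ, σ (u : S) = u → ∃ b : Sˣ, (u : S) - (un_N σ n b : Sˣ) ∈ I)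
    (u : Sˣ) (hu : σ (u : S) = u) : ∃ b : Sˣ, un_N σ n b = u := by
  obtain ⟨b, hb⟩ := hres u hu
  have h1 : u / un_N σ n b ∈ un_Fil I 0 := un_div_mem_Fil I (by simpa using hb)
  have h2 : un_D σ (u / un_N σ n b) = 1 := by
    rw [map_div, un_D_N σ n hσ, div_one, un_D_eq_one_iff]
    exact hu
  obtain ⟨y, -, hy⟩ := (un_principal_exact I σ hI n hσ θ hθ).1 _ h1 h2
  refine ⟨b * y, ?_⟩
  rw [map_mul, hy, mul_div_cancel]

/-- **Hilbert 90 on units.** With the residue statement `hres` (every unit of norm one is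
congruent to some `σ b / b` modulo `I`), every unit of norm one is of the form `σ b / b`. -/
theorem un_hilbert90 [IsAdicComplete I S] (hI : ∀ x ∈ I, σ x ∈ I) (n : ℕ)
    (hσ : ∀ x, (σ ^ n) x = x) (θ : S) (hθ : ∑ i ∈ range n, (σ ^ i) θ = 1)
    (hres : ∀ u : Sˣ, un_N σ n u = 1 → ∃ b : Sˣ, (u : S) * b - σ (b : S) ∈ I)
    (u : Sˣ) (hu : un_N σ n u = 1) : ∃ b : Sˣ, un_D σ b = u := by
  obtain ⟨b, hb⟩ := hres u hu
  have h1 : u / un_D σ b ∈ un_Fil I 0 := by
    have hdiv : u / un_D σ b = (u * b) / un_act σ b := by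
      rw [un_D_apply, div_div_eq_mul_div]
    rw [hdiv]
    exact un_div_mem_Fil I (by simpa using hb)
  have h2 : un_N σ n (u / un_D σ b) = 1 := by
    rw [map_div, un_N_D σ n hσ, div_one, hu]
  obtain ⟨y, -, hy⟩ := (un_principal_exact I σ hI n hσ θ hθ).2 _ h1 h2
  refine ⟨b * y, ?_⟩
  rw [map_mul, hy, mul_div_cancel]

end Steps

end Fermat.Agent.S55
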